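/-
S36, modular part, block ELTS = DER (owner helper208).  DEFINITIONS (no unfinished proof).

The "vertical elements" of the levels `N0 q` and `N0 q q` built from the Hauptmodul `h` of the
auxiliary level (`4` for `q` odd, `9` for `q = 2`; no elliptic points) by the derivative calculus
of `Lib/Theta`:

* `hh ∈ F0`, with expansion the INTEGER series `auxH q = t * auxU q`;
* `h0 = h(τ)`, `h1 = h(q τ) ∈ F1`;
* `kap  = q dh0/dh1`, expansion `(θh)(t) / (θh)(t^q)`;  `kap' = q dh1/dh0`;  `kap * kap' = q²`;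
* `X₁ = α kap`, `Y₁ = α kap'`, `X₂ = β kap`, `Y₂ = β kap'`;
* `T0 T1 T2 = h(τ), h(qτ), h(q²τ) ∈ F2`, `TT = T2 - T0`, `gg = T2 - T1^q`, `gg' = T1 - T2^q`.
-/
import Fermat.Agent.S36.Mod.Setup
import Fermat.Agent.Lib.Hauptmodul49.Base
import Fermat.Agent.Lib.Theta.Basic
import Fermat.Agent.Lib.Theta.DD
import Fermat.Agent.S18.Descent.FF1

set_option autoImplicit false
set_option linter.unusedSectionVars false
set_option linter.style.haveILetI false

noncomputable section

namespace Fermat.Agent.S36.Mod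

open ModularCurve Fermat.Agent.S24 Fermat.Agent.S18 Fermat.Agent.Lib.Hauptmodul
  Fermat.Agent.Lib.Theta

/-- the condition on the auxiliary level -/
abbrev Aux (q N : ℕ) : Prop := if q = 2 then 9 ∣ N else 4 ∣ N

theorem Aux.mul_right {q N : ℕ} (h : Aux q N) (m : ℕ) : Aux q (N * m) := by
  unfold Aux at h ⊢
  split_ifs at h ⊢ with hq
  · exact Dvd.dvd.mul_right h m
  · exact Dvd.dvd.mul_right h m

/-- `∏ ((1 - t^{an}) / (1 - t^n))^{24/(a-1)}`, `a = 9` (`q = 2`) or `a = 4` -/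
def auxU (q : ℕ) : PowerSeries ℤ := if q = 2 then u9Z else u4Z

/-- the Hauptmodul `h₉` (`q = 2`) or `h₄`, as an integer power series `t + ...` -/
def auxH (q : ℕ) : PowerSeries ℤ := PowerSeries.X * auxU q

theorem constantCoeff_auxU (q : ℕ) : PowerSeries.constantCoeff (auxU q) = 1 := by
  unfold auxU
  split_ifs
  · exact constantCoeff_u9Z
  · exact constantCoeff_u4Z

theorem auxH_two : auxH 2 = h9Z := by
  unfold auxH auxU
  rw [if_pos rfl]
  rfl

theorem auxH_of_ne {q : ℕ} (hq : q ≠ 2) : auxH q = h4Z := by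
  unfold auxH auxU
  rw [if_neg hq]
  rfl

theorem auxH_mem {q N : ℕ} [NeZero N] (h : Aux q N) : toL ℚ (auxH q) ∈ modularFunctionFieldFull N := by
  unfold Aux at h
  split_ifs at h with hq
  · subst hq
    rw [auxH_two]
    exact full_degeneracy_le h h9q_mem
  · rw [auxH_of_ne hq]
    exact full_degeneracy_le h h4q_mem

/-- the Hauptmodul of the auxiliary level in `FK K N` -/
def auxK (K : Type*) [Field K] [Algebra ℚ K] {q N : ℕ} [NeZero N] (h : Aux q N) : FK K N :=
  ⟨coeffEmb K (toL ℚ (auxH q)), coeffEmb_mem_laurentBaseChange K (auxH_mem h)⟩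

theorem coe_auxK (K : Type*) [Field K] [Algebra ℚ K] {q N : ℕ} [NeZero N] (h : Aux q N) :
    ((auxK K h : FK K N) : LaurentSeries K) = toL K (auxH q) := by
  show coeffMap (algebraMap ℚ K) (toL ℚ (auxH q)) = toL K (auxH q)
  exact coeffMap_toL _ _

/-- `FK K N` is a function field in one variable over `K`, for an abstract subfield `K` of `ℚ̄`. -/
theorem isFF1_FK (K : Type*) [Field K] [Algebra ℚ K] [Algebra K Kbar] (N : ℕ) [NeZero N] :
    FF.IsFF1 K (FK K N) :=
  haveI : FF.IsFF1 Kbar (laurentBaseChange Kbar (modularFunctionFieldFull N)) := Export.isFF1 N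
  Descent.isFF1_of_baseChange (L' := Kbar) (Descent.finite_divisorExpansions N) rfl

namespace Setup

variable {K K' : Type*} [Field K] [Field K'] [Algebra ℚ K] [Algebra ℚ K'] [Algebra K Kbar]
  [Algebra K' Kbar] (S : Setup K K') (haux : Aux S.q S.N0)

/-- the Hauptmodul `h` at level `N0` -/
def hh : S.F0 := auxK K haux

/-- `h(τ)` at level `N0 q` -/
def h0 : S.F1 := S.al0 (S.hh haux)

/-- `h(q τ)` at level `N0 q` -/
def h1 : S.F1 := S.be0 (S.hh haux)

/-- `κ = q dh(τ)/dh(qτ)`, with expansion `(θh)(t) / (θh)(t^q)` -/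
def kap : S.F1 := ((S.q : ℕ) : S.F1) * dd K (S.h1 haux) (S.h0 haux)

/-- `κ' = q dh(qτ)/dh(τ) = q² / κ = w₁ κ` -/
def kap' : S.F1 := ((S.q : ℕ) : S.F1) * dd K (S.h0 haux) (S.h1 haux)

def X₁ : S.F2 := S.al1 (S.kap haux)
def Y₁ : S.F2 := S.al1 (S.kap' haux)
def X₂ : S.F2 := S.be1 (S.kap haux)
def Y₂ : S.F2 := S.be1 (S.kap' haux)

/-- `h(τ)` at level `N0 q q` -/
def T0 : S.F2 := S.al1 (S.h0 haux)

/-- `h(q τ)` at level `N0 q q` -/
def T1 : S.F2 := S.al1 (S.h1 haux)

/-- `h(q² τ)` at level `N0 q q` -/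
def T2 : S.F2 := S.be1 (S.h1 haux)

/-- `h(q² τ) - h(τ)`, a uniformiser of the middle component -/
def TT : S.F2 := S.T2 haux - S.T0 haux

/-- `h(q² τ) - h(q τ)^q`, orders `(1,0,0)` -/
def gg : S.F2 := S.T2 haux - S.T1 haux ^ S.q

/-- `h(q τ) - h(q² τ)^q`, orders `(0, ?, 1)` -/
def gg' : S.F2 := S.T1 haux - S.T2 haux ^ S.q

/-- the three vertical valuation rings -/
def V3 : Fin 3 → ValuationSubring S.F2 := ![S.V20, S.V11, S.V02]

end Setup

end Fermat.Agent.S36.Mod

end
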