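/-
S36, modular part, block ELTS = DER (owner helper208).  Node ELTS-1: the INTEGER series.
The statements are frozen interfaces (proofs: helper57).

`H = toL ℤ (auxH q) = t + ...`, `thZ = θ H = t + ...` (a unit of `ℤ((t))`),
`kapZ = (θH)(t) / (θH)(t^q)`.
-/
import Fermat.Agent.S36.Mod.Elts.Defs
import Fermat.Agent.Lib.MulHecke.Frob

set_option autoImplicit false

noncomputable section

namespace Fermat.Agent.S36.Mod

open ModularCurve Fermat.Agent.S24 Fermat.Agent.S18 Fermat.Agent.Lib.Hauptmodul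
  Fermat.Agent.Lib.Theta

/-- base change of an integer series to a commutative ring -/
abbrev cz (R : Type*) [CommRing R] : LaurentSeries ℤ →+* LaurentSeries R :=
  coeffMap (Int.castRingHom R)

/-- the integer Laurent series of the Hauptmodul -/
def HZ (q : ℕ) : LaurentSeries ℤ := toL ℤ (auxH q)

/-- `θ h` -/
def thZ (q : ℕ) : LaurentSeries ℤ := theta (HZ q)

theorem cz_HZ (R : Type*) [CommRing R] (q : ℕ) : cz R (HZ q) = toL R (auxH q) :=
  coeffMap_toL _ _

theorem theta_cz (R : Type*) [CommRing R] (P : LaurentSeries ℤ) :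
    theta (cz R P) = cz R (theta P) := theta_coeffMap _ _

theorem cz_qExpand (R : Type*) [CommRing R] (d : ℕ) [NeZero d] (P : LaurentSeries ℤ) :
    cz R (qExpand ℤ d P) = qExpand R d (cz R P) := by
  ext k
  by_cases hk : (d : ℤ) ∣ k
  · obtain ⟨m, rfl⟩ := hk
    rw [coeffMap_coeff, qExpand_coeff_mul, qExpand_coeff_mul, coeffMap_coeff]
  · rw [coeffMap_coeff, qExpand_coeff_of_not_dvd d _ hk, qExpand_coeff_of_not_dvd d _ hk, map_zero]

theorem coeffMap_cz {R S : Type*} [CommRing R] [CommRing S] (f : R →+* S) (P : LaurentSeries ℤ) :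
    coeffMap f (cz R P) = cz S P := by
  ext k
  rw [coeffMap_coeff, coeffMap_coeff, coeffMap_coeff]
  exact map_intCast f _

/-- `(HZ q).coeff 1 = 1`, no lower terms. -/
theorem coeff_HZ_one (q : ℕ) : (HZ q).coeff 1 = 1 :=
  coeff_toL_X_mul_one ℤ (auxU q) (constantCoeff_auxU q)

theorem coeff_HZ_of_lt (q : ℕ) {k : ℤ} (hk : k < 1) : (HZ q).coeff k = 0 :=
  coeff_toL_X_mul_of_lt ℤ (auxU q) hk

/-- `θ H = t * (1 + ...)` is a unit of `ℤ((t))`: write `θ H = single 1 1 * toL ℤ w`, with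
`w = PowerSeries.mk fun n => (n + 1) * coeff n (auxU q)`, `constantCoeff w = 1`
(`isUnit_toL`, `isUnit_toL_X` of `Lib/Hauptmodul/AnyRing.lean`). -/
theorem isUnit_thZ (q : ℕ) : IsUnit (thZ q) := by
  set w : PowerSeries ℤ := PowerSeries.mk fun n => ((n : ℤ) + 1) * PowerSeries.coeff n (auxU q)
    with hw
  have hw0 : PowerSeries.constantCoeff w = 1 := by
    rw [← PowerSeries.coeff_zero_eq_constantCoeff_apply, hw, PowerSeries.coeff_mk,
      PowerSeries.coeff_zero_eq_constantCoeff_apply, constantCoeff_auxU]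
    simp
  have key : thZ q = toL ℤ (PowerSeries.X * w) := by
    ext k
    rw [thZ, theta_coeff, HZ, auxH]
    rcases lt_or_ge k 0 with hk | hk
    · rw [toL_coeff_of_neg _ _ hk, toL_coeff_of_neg _ _ hk, mul_zero]
    · obtain ⟨n, rfl⟩ := Int.eq_ofNat_of_zero_le hk
      rw [toL_coeff_natCast, toL_coeff_natCast]
      rcases n with _ | m
      · simp
      · rw [PowerSeries.coeff_succ_X_mul, PowerSeries.coeff_succ_X_mul, hw, PowerSeries.coeff_mk]
        push_cast
        ring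
  rw [key, map_mul]
  exact (isUnit_toL_X ℤ).mul (isUnit_toL ℤ hw0)

/-- `H` itself is a unit of `ℤ((t))`. -/
theorem isUnit_HZ (q : ℕ) : IsUnit (HZ q) := by
  rw [HZ, auxH, map_mul]
  exact (isUnit_toL_X ℤ).mul (isUnit_toL ℤ (constantCoeff_auxU q))

/-- the inverse of `θ H` -/
def thZi (q : ℕ) : LaurentSeries ℤ := ((isUnit_thZ q).unit⁻¹ : (LaurentSeries ℤ)ˣ)

theorem thZ_mul_thZi (q : ℕ) : thZ q * thZi q = 1 := (isUnit_thZ q).mul_val_inv

/-- `κ = (θH)(t) / (θH)(t^q)` -/
def kapZ (q : ℕ) [NeZero q] : LaurentSeries ℤ := thZ q * qExpand ℤ q (thZi q)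

/-- `1 / κ` -/
def kapZi (q : ℕ) [NeZero q] : LaurentSeries ℤ := thZi q * qExpand ℤ q (thZ q)

theorem kapZ_mul_kapZi (q : ℕ) [NeZero q] : kapZ q * kapZi q = 1 := by
  have h1 : qExpand ℤ q (thZ q) * qExpand ℤ q (thZi q) = 1 := by
    rw [← map_mul, thZ_mul_thZi, map_one]
  have h2 := thZ_mul_thZi q
  rw [kapZ, kapZi]
  linear_combination (qExpand ℤ q (thZ q) * qExpand ℤ q (thZi q)) * h2 + h1

theorem kapZ_mul_qExpand (q : ℕ) [NeZero q] : kapZ q * qExpand ℤ q (thZ q) = thZ q := by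
  have h1 : qExpand ℤ q (thZ q) * qExpand ℤ q (thZi q) = 1 := by
    rw [← map_mul, thZ_mul_thZi, map_one]
  rw [kapZ]
  linear_combination (thZ q) * h1

/-- a unit of `ℤ((t))` stays nonzero over every nontrivial ring. -/
theorem cz_ne_zero_of_mul_eq_one (R : Type*) [CommRing R] [Nontrivial R] {P Q : LaurentSeries ℤ}
    (h : P * Q = 1) : cz R P ≠ 0 := by
  intro h0
  have h1 := congrArg (cz R) h
  rw [map_mul, h0, zero_mul, map_one] at h1
  exact zero_ne_one h1

/-- **Frobenius**: `P(t^q) = P(t)^q` over a ring of characteristic `q`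
(`Lib.MulHecke.pow_char_eq`; the Frobenius fixes the image of `ℤ`). -/
theorem cz_qExpand_eq_pow (k : Type*) [CommRing k] (q : ℕ) [Fact q.Prime] [CharP k q]
    (P : LaurentSeries ℤ) : qExpand k q (cz k P) = cz k P ^ q := by
  rw [Fermat.Agent.Lib.MulHecke.pow_char_eq, coeffMap_cz]

/-- ... and over `ℤ`: `P(t^q) - P(t)^q ∈ q ℤ((t))` (reduce modulo `q`: a series all of whose
coefficients are divisible by `q` is `q` times a series). -/
theorem exists_frobZ (q : ℕ) [NeZero q] (hq : q.Prime) (P : LaurentSeries ℤ) :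
    ∃ U : LaurentSeries ℤ, qExpand ℤ q P - P ^ q = (q : LaurentSeries ℤ) * U := by
  haveI : Fact q.Prime := ⟨hq⟩
  set E : LaurentSeries ℤ := qExpand ℤ q P - P ^ q with hE
  have h0 : cz (ZMod q) E = 0 := by
    rw [hE, map_sub, map_pow, cz_qExpand, cz_qExpand_eq_pow, sub_self]
  have hdvd : ∀ n : ℤ, (q : ℤ) ∣ E.coeff n := by
    intro n
    have h1 := congrArg (fun f : LaurentSeries (ZMod q) => f.coeff n) h0
    simp only [coeffMap_coeff, HahnSeries.coeff_zero] at h1
    exact (ZMod.intCast_zmod_eq_zero_iff_dvd _ q).mp h1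
  let U : LaurentSeries ℤ :=
    { coeff := fun n => E.coeff n / (q : ℤ)
      isPWO_support' := E.isPWO_support.mono (by
        intro n hn
        simp only [Function.mem_support, ne_eq] at hn
        exact fun h => hn (by rw [h, Int.zero_ediv])) }
  refine ⟨U, ?_⟩
  have hq' : (q : LaurentSeries ℤ) = HahnSeries.C (q : ℤ) := (map_natCast HahnSeries.C q).symm
  ext n
  rw [hq', HahnSeries.C_mul_eq_smul, HahnSeries.coeff_smul, smul_eq_mul]
  exact (Int.mul_ediv_cancel' (hdvd n)).symm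

/-- `ψ = (H(t^q) - H(t)^q) / q` -/
def psiZ (q : ℕ) [NeZero q] (hq : q.Prime) : LaurentSeries ℤ := (exists_frobZ q hq (HZ q)).choose

theorem psiZ_spec (q : ℕ) [NeZero q] (hq : q.Prime) :
    qExpand ℤ q (HZ q) - HZ q ^ q = (q : LaurentSeries ℤ) * psiZ q hq :=
  (exists_frobZ q hq (HZ q)).choose_spec

/-- `θ ψ = (θH)(t^q) - H^(q-1) θH`  (apply `θ` to `psiZ_spec`, `theta_qExpand`,
`Derivation.leibniz_pow`, and cancel `q`: `ℤ((t))` has no `q`-torsion). -/
theorem theta_psiZ (q : ℕ) [NeZero q] (hq : q.Prime) :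
    theta (psiZ q hq) = qExpand ℤ q (thZ q) - HZ q ^ (q - 1) * thZ q := by
  have h := congrArg theta (psiZ_spec q hq)
  rw [map_sub, theta_qExpand, Derivation.leibniz_pow, Derivation.leibniz, Derivation.map_natCast,
    smul_zero, add_zero, smul_eq_mul, smul_eq_mul, nsmul_eq_mul] at h
  have hq0 : (q : LaurentSeries ℤ) ≠ 0 := by
    have hq' : (q : LaurentSeries ℤ) = HahnSeries.C (q : ℤ) := (map_natCast HahnSeries.C q).symm
    rw [hq', Ne, map_eq_zero_iff _ HahnSeries.C_injective]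
    exact_mod_cast NeZero.ne q
  apply mul_left_cancel₀ hq0
  rw [← h, thZ]
  ring

end Fermat.Agent.S36.Mod

end
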