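/-
S36, modular part, block ELTS = DER (owner helper208).  Node ELTS-2: Gauss valuations and residues
of elements whose expansion is an INTEGER series (or a twist of one).
Proofs: helper292 (task ELTS-2).
All proofs are short consequences of `S36/Mod/GaussEmb/{Basic,Funct}.lean`.
-/
import Fermat.Agent.S36.Mod.Elts.Series
import Fermat.Agent.S36.Mod.GaussEmb.Basic
import Fermat.Agent.S36.Mod.GaussEmb.Funct

set_option autoImplicit false
set_option linter.unusedSectionVars false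

noncomputable section

namespace Fermat.Agent.S36.Mod

open ModularCurve Fermat.Agent.S18 Fermat.Agent.S18.Vert Fermat.Agent.Lib.Theta

variable {K : Type*} [Field K] {A : ValuationSubring K}

theorem inc_cz (P : LaurentSeries ℤ) : inc A (cz A P) = cz K P := by
  show coeffMap A.subtype (coeffMap (Int.castRingHom A) P) = _
  rw [coeffMap_coeffMap]
  exact coeffMap_congr (RingHom.ext_int _ _) P

theorem red_cz (P : LaurentSeries ℤ) : red A (cz A P) = cz (IsLocalRing.ResidueField A) P := by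
  show coeffMap (IsLocalRing.residue A) (coeffMap (Int.castRingHom A) P) = _
  rw [coeffMap_coeffMap]
  exact coeffMap_congr (RingHom.ext_int _ _) P

theorem theta_inc (P : LaurentSeries A) : theta (inc A P) = inc A (theta P) := theta_coeffMap _ _

theorem theta_red (P : LaurentSeries A) : theta (red A P) = red A (theta P) := theta_coeffMap _ _

variable [IsDiscreteValuationRing A]

namespace IntEmb

variable {F : Type*} [Field F] (φ : IntEmb A F)

theorem val_lt_one_iff {f : F} (hf : f ∈ φ.val) :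
    φ.val.valuation f < 1 ↔ φ.res ⟨f, hf⟩ = 0 := by
  rw [φ.res_eq_zero_iff ⟨f, hf⟩, ValuationSubring.mem_nonunits_iff]

/-- `valuation_lt_one_iff` + `res_eq_zero_iff` -/
theorem val_sub_lt_one_iff {f g : F} (hf : f ∈ φ.val) (hg : g ∈ φ.val) :
    φ.val.valuation (f - g) < 1 ↔ φ.res ⟨f, hf⟩ = φ.res ⟨g, hg⟩ := by
  rw [φ.val_lt_one_iff (sub_mem hf hg), ← sub_eq_zero (a := φ.res ⟨f, hf⟩), ← map_sub]
  rfl

theorem val_eq_one_iff {f : F} (hf : f ∈ φ.val) :
    φ.val.valuation f = 1 ↔ φ.res ⟨f, hf⟩ ≠ 0 := by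
  rw [Ne, ← φ.val_lt_one_iff hf, not_lt]
  have hle : φ.val.valuation f ≤ 1 := (φ.val.valuation_le_one_iff f).2 hf
  exact ⟨fun h => h.ge, fun h => le_antisymm hle h⟩

theorem mem_val_of_cz {f : F} {P : LaurentSeries ℤ} (h : φ.toHom f = cz K P) : f ∈ φ.val :=
  φ.mem_val_of_eq_inc (P := cz A P) (by rw [h, inc_cz])

theorem res_of_cz {f : F} {P : LaurentSeries ℤ} (h : φ.toHom f = cz K P) :
    φ.res ⟨f, φ.mem_val_of_cz h⟩ = cz _ P := by
  rw [← red_cz]
  exact φ.res_of_eq_inc (P := cz A P) (by rw [h, inc_cz])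

/-- an element whose expansion is a unit of `ℤ((t))` is a unit of the Gauss valuation. -/
theorem val_eq_one_of_cz {f : F} {P Q : LaurentSeries ℤ} (h : φ.toHom f = cz K P)
    (hPQ : P * Q = 1) : φ.val.valuation f = 1 := by
  rw [φ.val_eq_one_iff (φ.mem_val_of_cz h), φ.res_of_cz h]
  intro h0
  have h1 := congrArg (cz (IsLocalRing.ResidueField A)) hPQ
  rw [map_mul, h0, zero_mul, map_one] at h1
  exact zero_ne_one h1

private theorem twist_cz_eq_inc (ζ : Kˣ) (hζ : (ζ : K) ∈ A) (hζ' : ((ζ⁻¹ : Kˣ) : K) ∈ A)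
    (P : LaurentSeries ℤ) : S24.B.twist ζ (cz K P) = inc A (twA ζ hζ hζ' (cz A P)) := by
  rw [twA, inc_liftS, inc_cz]

theorem mem_val_of_twist_cz (ζ : Kˣ) (hζ : (ζ : K) ∈ A) (hζ' : ((ζ⁻¹ : Kˣ) : K) ∈ A) {f : F}
    {P : LaurentSeries ℤ} (h : φ.toHom f = S24.B.twist ζ (cz K P)) : f ∈ φ.val :=
  φ.mem_val_of_eq_inc (P := twA ζ hζ hζ' (cz A P)) (by rw [h, twist_cz_eq_inc ζ hζ hζ'])

private theorem resUnit_eq_one (ζ : Kˣ) (hζ : (ζ : K) ∈ A) (hζ' : ((ζ⁻¹ : Kˣ) : K) ∈ A)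
    (h1 : (ζ : K) - 1 ∈ A.nonunits) : resUnit ζ hζ hζ' = 1 := by
  apply Units.ext
  change IsLocalRing.residue A (⟨ζ, hζ⟩ : A) = 1
  rw [ValuationSubring.mem_nonunits_iff_exists_mem_maximalIdeal] at h1
  obtain ⟨hm, hmax⟩ := h1
  have h0 : IsLocalRing.residue A ((⟨ζ, hζ⟩ : A) - 1) = 0 := by
    rw [IsLocalRing.residue_eq_zero_iff]
    exact hmax
  rw [map_sub, map_one, sub_eq_zero] at h0
  exact h0

/-- `twist ζ (cz K P) = inc A (twA ζ _ _ (cz A P))`, `red_twA`, and `resUnit ζ = 1`. -/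
theorem res_of_twist_cz (ζ : Kˣ) (hζ : (ζ : K) ∈ A) (hζ' : ((ζ⁻¹ : Kˣ) : K) ∈ A)
    (h1 : (ζ : K) - 1 ∈ A.nonunits) {f : F} {P : LaurentSeries ℤ}
    (h : φ.toHom f = S24.B.twist ζ (cz K P)) :
    φ.res ⟨f, φ.mem_val_of_twist_cz ζ hζ hζ' h⟩ = cz _ P := by
  have h2 := φ.res_of_eq_inc (P := twA ζ hζ hζ' (cz A P)) (by rw [h, twist_cz_eq_inc ζ hζ hζ'])
  rw [red_twA, resUnit_eq_one ζ hζ hζ' h1, S24.B.twist_one, red_cz] at h2
  exact h2

/-! ### derivations -/

/-- the quotient rule, without division -/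
private theorem theta_quot {R : Type*} [CommRing R] {x P Q : LaurentSeries R} (h : x * Q = P) :
    theta x * Q ^ 2 = theta P * Q - P * theta Q := by
  have h1 := congrArg theta h
  rw [Derivation.leibniz, smul_eq_mul, smul_eq_mul] at h1
  rw [← h1, ← h]
  ring

private theorem der_pres (D : F → F) {T : F} {PT : LaurentSeries A} (hT : φ.toHom T = inc A PT)
    (hD : ∀ f, theta (φ.toHom f) = φ.toHom (D f) * theta (φ.toHom T)) {f : F}
    {P Q : LaurentSeries A} (h : φ.toHom f * inc A Q = inc A P) :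
    φ.toHom (D f) * inc A (theta PT * Q ^ 2) = inc A (theta P * Q - P * theta Q) := by
  have h1 := theta_quot h
  rw [hD f, hT, theta_inc, theta_inc, theta_inc] at h1
  rw [map_mul, map_pow, map_sub, map_mul, map_mul, ← mul_assoc, h1]

/-- **A derivation computed by `θ` preserves the Gauss valuation ring.**  If `f Q = P` then
`θ(f) Q² = θ(P) Q - P θ(Q)`, so `D f * (θ(P_T) Q²) = θ(P) Q - P θ(Q)`. -/
theorem der_mem (D : F → F) {T : F} {PT : LaurentSeries A} (hT : φ.toHom T = inc A PT)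
    (hPT : red A (theta PT) ≠ 0)
    (hD : ∀ f, theta (φ.toHom f) = φ.toHom (D f) * theta (φ.toHom T)) {f : F} (hf : f ∈ φ.val) :
    D f ∈ φ.val := by
  obtain ⟨P, Q, hQ, h⟩ := (φ.mem_val_iff f).1 hf
  refine (φ.mem_val_iff _).2 ⟨theta P * Q - P * theta Q, theta PT * Q ^ 2, ?_,
    φ.der_pres D hT hD h⟩
  rw [map_mul, map_pow]
  exact mul_ne_zero hPT (pow_ne_zero _ hQ)

/-- ... and on residues it is `θ(·) / θ(T̄)`. -/
theorem res_der (D : F → F) {T : F} {PT : LaurentSeries A} (hT : φ.toHom T = inc A PT)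
    (hPT : red A (theta PT) ≠ 0)
    (hD : ∀ f, theta (φ.toHom f) = φ.toHom (D f) * theta (φ.toHom T)) {f : F} (hf : f ∈ φ.val) :
    φ.res ⟨D f, φ.der_mem D hT hPT hD hf⟩ * theta (red A PT) = theta (φ.res ⟨f, hf⟩) := by
  obtain ⟨P, Q, hQ, h⟩ := (φ.mem_val_iff f).1 hf
  have hQ2 : red A (theta PT * Q ^ 2) ≠ 0 := by
    rw [map_mul, map_pow]
    exact mul_ne_zero hPT (pow_ne_zero _ hQ)
  have e1 := φ.res_spec ⟨D f, φ.der_mem D hT hPT hD hf⟩ hQ2 (φ.der_pres D hT hD h)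
  have e2 := theta_quot (φ.res_spec ⟨f, hf⟩ hQ h)
  rw [theta_red, theta_red, ← map_mul, ← map_mul, ← map_sub, ← e1, map_mul, map_pow,
    ← mul_assoc] at e2
  rw [theta_red]
  exact (mul_right_cancel₀ (pow_ne_zero 2 hQ) e2).symm

end IntEmb

end Fermat.Agent.S36.Mod

end
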