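/-
S36, modular part, block ELTS = DER (owner helper208).  Node ELTS-3: cyclotomic inputs.
The statements are frozen interfaces.  (proofs: helper207)
-/
import Fermat.Agent.S36.Mod.Elts.IntRes
import Fermat.Agent.S36.Mod.HalfInst.Cyclo

set_option autoImplicit false
set_option linter.unusedSectionVars false

noncomputable section

namespace Fermat.Agent.S36.Mod

open ModularCurve Fermat.Agent.S18 Fermat.Agent.S18.Vert Fermat.Agent.Lib.Theta

variable {K' : Type*} [Field K'] (B' : ValuationSubring K') {q : ℕ}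

/-- `q = ∏_{0 < i < q} (1 - ζ ^ i)` -/
private theorem cyc_prod_Ico {ζ : K'} (hζ : IsPrimitiveRoot ζ q) (hq : q.Prime) :
    (q : K') = ∏ i ∈ Finset.Ico 1 q, (1 - ζ ^ i) := by
  have : Fact q.Prime := ⟨hq⟩
  have : NeZero q := ⟨hq.ne_zero⟩
  have h2 := Polynomial.cyclotomic_eq_prod_X_sub_primitiveRoots hζ
  have h3 := congrArg (Polynomial.eval 1) h2
  rw [Polynomial.eval_one_cyclotomic_prime, Polynomial.eval_prod] at h3
  simp only [Polynomial.eval_sub, Polynomial.eval_X, Polynomial.eval_C] at h3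
  rw [h3]
  symm
  refine Finset.prod_bij (fun i _ => ζ ^ i) ?_ ?_ ?_ ?_
  · intro i hi
    rw [Finset.mem_Ico] at hi
    rw [mem_primitiveRoots hq.pos]
    exact hζ.pow_of_coprime i (Nat.coprime_of_lt_prime (by omega) hi.2 hq).symm
  · intro i hi j hj hij
    exact hζ.pow_inj (Finset.mem_Ico.mp hi).2 (Finset.mem_Ico.mp hj).2 hij
  · intro μ hμ
    rw [mem_primitiveRoots hq.pos] at hμ
    obtain ⟨i, hiq, hi, rfl⟩ := hζ.isPrimitiveRoot_iff.1 hμ
    refine ⟨i, Finset.mem_Ico.mpr ⟨?_, hiq⟩, rfl⟩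
    rcases Nat.eq_zero_or_pos i with rfl | h
    · rw [Nat.coprime_zero_left] at hi
      exact absurd hi hq.one_lt.ne'
    · exact h
  · intro i _
    rfl

/-- Wilson's theorem in a ring of characteristic `q`, with the signs -/
private theorem cyc_wilson_aux {k : Type*} [CommRing k] (hq : q.Prime) (hqk : (q : k) = 0) :
    (∏ i ∈ Finset.Ico 1 q, (-(i : k))) + 1 = 0 := by
  have : Fact q.Prime := ⟨hq⟩
  have hfac : ((q - 1).factorial : k) = -1 := by
    obtain ⟨m, hm⟩ : q ∣ (q - 1).factorial + 1 := by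
      rw [← ZMod.natCast_eq_zero_iff]
      push_cast
      rw [ZMod.wilsons_lemma]
      ring
    have h1 := congrArg (Nat.cast : ℕ → k) hm
    push_cast at h1
    rw [hqk, zero_mul] at h1
    exact eq_neg_of_add_eq_zero_left h1
  have hprod : (∏ i ∈ Finset.Ico 1 q, (i : k)) = ((q - 1).factorial : k) := by
    rw [← Finset.prod_Ico_id_eq_factorial, Nat.sub_add_cancel hq.one_le, Nat.cast_prod]
  rw [Finset.prod_neg, Nat.card_Ico, hprod, hfac]
  rcases hq.eq_two_or_odd' with rfl | hodd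
  · have h2 : (2 : k) = 0 := by exact_mod_cast hqk
    norm_num
    linear_combination h2
  · rw [(Nat.Odd.sub_odd hodd odd_one).neg_one_pow]
    ring

/-- **Wilson**: `q = ε (ζ - 1)^(q-1)` with `ε ≡ -1`.  As in `cyc_exists_unit`
(`HalfInst/Cyclo.lean`): `q = ∏_{0<i<q} (1 - ζ^i)`, `1 - ζ^i = -(ζ - 1) c_i`, `c_i ≡ i`
(`cyc_exists_quot`), so `ε = (-1)^(q-1) ∏ c_i ≡ (-1)^(q-1) (q-1)! ≡ (-1)^q`
(`ZMod.wilsons_lemma`), which is `-1` for `q` odd and `1 ≡ -1` for `q = 2`. -/
theorem cyc_unit_cong {ζ : K'} (hζ : IsPrimitiveRoot ζ q) (hq : q.Prime)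
    (hqB : (q : K') ∈ B'.nonunits) :
    ∃ ε : K', ε ∈ B' ∧ ε⁻¹ ∈ B' ∧ (q : K') = ε * (ζ - 1) ^ (q - 1) ∧ ε + 1 ∈ B'.nonunits := by
  have : Fact q.Prime := ⟨hq⟩
  have : NeZero q := ⟨hq.ne_zero⟩
  have h1 := cyc_prod_Ico hζ hq
  choose c hcB hc hcn using fun n : ℕ => cyc_exists_quot B' hζ hq hqB (n : ℤ)
  have hres : ∀ n, IsLocalRing.residue B' ⟨c n, hcB n⟩ = (n : IsLocalRing.ResidueField B') := by
    intro n
    have h0 : IsLocalRing.residue B' (⟨c n, hcB n⟩ - (n : B')) = 0 := by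
      rw [IsLocalRing.residue_eq_zero_iff, ← ValuationSubring.coe_mem_nonunits_iff]
      simpa using hcn n
    rwa [map_sub, map_natCast, sub_eq_zero] at h0
  have hqk : (q : IsLocalRing.ResidueField B') = 0 := by
    have h0 : IsLocalRing.residue B' (q : B') = 0 := by
      rw [IsLocalRing.residue_eq_zero_iff, ← ValuationSubring.coe_mem_nonunits_iff]
      simpa using hqB
    rwa [map_natCast] at h0
  have hε : IsLocalRing.residue B' ((∏ i ∈ Finset.Ico 1 q, (-(⟨c i, hcB i⟩ : B'))) + 1) = 0 := by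
    rw [map_add, map_one, map_prod]
    simp only [map_neg, hres]
    exact cyc_wilson_aux hq hqk
  have hεn : ((∏ i ∈ Finset.Ico 1 q, (-(⟨c i, hcB i⟩ : B')) : B') : K') + 1 ∈ B'.nonunits := by
    rw [IsLocalRing.residue_eq_zero_iff, ← ValuationSubring.coe_mem_nonunits_iff] at hε
    simpa using hε
  refine ⟨((∏ i ∈ Finset.Ico 1 q, (-(⟨c i, hcB i⟩ : B')) : B') : K'), Subtype.mem _, ?_, ?_, hεn⟩
  · generalize (∏ i ∈ Finset.Ico 1 q, (-(⟨c i, hcB i⟩ : B')) : B') = ε at hεn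
    rw [ValuationSubring.mem_nonunits_iff] at hεn
    have h2 : B'.valuation (ε : K') = 1 := by
      have h3 : B'.valuation ((-1 : K') + ((ε : K') + 1)) = B'.valuation (-1 : K') :=
        Valuation.map_add_eq_of_lt_left _ (by rwa [Valuation.map_neg, map_one])
      have h4 : (-1 : K') + ((ε : K') + 1) = (ε : K') := by ring
      rwa [h4, Valuation.map_neg, map_one] at h3
    rw [← ValuationSubring.valuation_le_one_iff, map_inv₀, h2, inv_one]
  · have h4 : ((∏ i ∈ Finset.Ico 1 q, (-(⟨c i, hcB i⟩ : B')) : B') : K') =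
        ∏ i ∈ Finset.Ico 1 q, (-(c i)) := by
      rw [← ValuationSubring.subtype_apply, map_prod]
      rfl
    rw [h4, h1]
    have h5 : (ζ - 1) ^ (q - 1) = ∏ _i ∈ Finset.Ico 1 q, (ζ - 1) := by
      rw [Finset.prod_const, Nat.card_Ico]
    rw [h5, ← Finset.prod_mul_distrib]
    refine Finset.prod_congr rfl fun i _ => ?_
    have h6 := hc i
    rw [zpow_natCast] at h6
    linear_combination -h6

/-- `P(ζ t) - P(t) = (ζ - 1) U` with `U ≡ θ P`, for an integer series `P`
(`cyc_exists_quot`: `ζ^n - 1 = (ζ - 1) c_n`, `c_n ≡ n`; `U.coeff n = c_n * P.coeff n`; same proof as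
`exists_twist_Js_sub` of `HalfInst/Expand.lean`). -/
theorem exists_twist_cz_sub (hq : q.Prime) (hqB : (q : K') ∈ B'.nonunits) (ζ : K'ˣ)
    (hζ : IsPrimitiveRoot ζ q) (hmem : (ζ : K') - 1 ∈ B') (P : LaurentSeries ℤ) :
    ∃ U : LaurentSeries B', red B' U = cz _ (theta P) ∧
      S24.B.twist ζ (cz K' P) - cz K' P = inc B' (HahnSeries.C ⟨(ζ : K') - 1, hmem⟩ * U) := by
  have hζ' : IsPrimitiveRoot (ζ : K') q := IsPrimitiveRoot.coe_units_iff.2 hζ
  choose c hcA hc hcn using cyc_exists_quot B' hζ' hq hqB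
  refine ⟨⟨fun n => ⟨c n, hcA n⟩ * ((P.coeff n : ℤ) : B'), P.isPWO_support.mono ?_⟩, ?_, ?_⟩
  · intro n hn
    simp only [Function.mem_support, ne_eq] at hn ⊢
    intro h0
    apply hn
    rw [h0]
    simp
  · ext n
    have h2 : IsLocalRing.residue B' (⟨c n, hcA n⟩ - ((n : ℤ) : B')) = 0 := by
      rw [IsLocalRing.residue_eq_zero_iff, ← ValuationSubring.coe_mem_nonunits_iff]
      simpa using hcn n
    rw [map_sub, sub_eq_zero] at h2
    rw [red_coeff, coeffMap_coeff, theta_coeff]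
    show IsLocalRing.residue B' (⟨c n, hcA n⟩ * ((P.coeff n : ℤ) : B')) = _
    rw [map_mul, h2, map_intCast, map_intCast]
    simp
  · ext n
    rw [HahnSeries.coeff_sub, S24.B.twist_coeff, inc_coeff, HahnSeries.C_apply,
      HahnSeries.coeff_single_mul, sub_zero, coeffMap_coeff, Units.val_zpow_eq_zpow_val]
    have h3 := hc n
    push_cast
    simp only [eq_intCast]
    linear_combination ((P.coeff n : ℤ) : K') * h3

end Fermat.Agent.S36.Mod

end
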