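/-
S36, modular part, block ELTS = DER (owner helper208).  Abstract algebra: "horizontally integral +
vertically integral implies integral" for the chart of a coordinate `J` which is a rational function
`P(x) / g(x)` of a good coordinate `x`.
-/
import Mathlib
import Fermat.Agent.S18.Defs
import Fermat.Agent.S18.Chart.Const
import Fermat.Agent.S18.Chart.DedFrac
import Fermat.Agent.S36.BP.Build.ChartMap

set_option autoImplicit false

noncomputable section

namespace Fermat.Agent.S36.Mod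

open Polynomial Fermat.Agent.S18 Fermat.Agent.S36.BP.Build

/-- **Scaling.**  `C` integrally closed in `F`, `s ∈ C`; if every element of `P` is multiplied into
`C` by a power of `s`, the same holds for every element integral over `P`. -/
theorem scale_mem {F : Type*} [Field F] (C P : Subring F) (hC : ∀ y : F, IsIntegral C y → y ∈ C)
    {s : F} (hs : s ∈ C) (hP : ∀ a ∈ P, ∃ d : ℕ, s ^ d * a ∈ C) {z : F} (hz : IsIntegral P z) :
    ∃ d : ℕ, s ^ d * z ∈ C := by
  obtain ⟨p, hp, hpb⟩ := hz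
  have hP' : ∀ a ∈ P, ∃ d : ℕ, ∀ e : ℕ, d ≤ e → s ^ e * a ∈ C := by
    intro a ha
    obtain ⟨d, hd⟩ := hP a ha
    refine ⟨d, fun e he => ?_⟩
    obtain ⟨k, rfl⟩ := Nat.exists_eq_add_of_le he
    rw [pow_add, mul_comm (s ^ d), mul_assoc]
    exact C.mul_mem (C.pow_mem hs k) hd
  have hN : ∃ N : ℕ, ∀ i : ℕ, ∀ M : ℕ, N ≤ M → s ^ M * (p.coeff i : F) ∈ C := by
    choose f hf using fun i : ℕ => hP' (p.coeff i) (p.coeff i).2
    refine ⟨(Finset.range (p.natDegree + 1)).sup f, fun i M hM => ?_⟩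
    by_cases hi : i ≤ p.natDegree
    · exact hf i M ((Finset.le_sup (f := f) (Finset.mem_range.mpr (by omega))).trans hM)
    · rw [coeff_eq_zero_of_natDegree_lt (by omega)]
      simp
  obtain ⟨N, hN⟩ := hN
  refine ⟨N, hC _ ?_⟩
  set P' : F[X] := p.map (algebraMap P F) with hP'def
  have hPm : P'.Monic := hp.map _
  have hPdeg : P'.natDegree = p.natDegree := hp.natDegree_map _
  have hPb : P'.eval z = 0 := by
    rw [hP'def, eval_map]; exact hpb
  set Q : F[X] := scaleRoots P' (s ^ N) with hQ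
  have hQm : Q.Monic := (monic_scaleRoots_iff _).mpr hPm
  have hQb : Q.eval (s ^ N * z) = 0 := by
    have h := scaleRoots_eval₂_eq_zero (p := P') (RingHom.id F) (r := z) (s := s ^ N)
      (by rw [eval₂_id]; exact hPb)
    rw [eval₂_id, RingHom.id_apply] at h
    exact h
  have hl : Q ∈ Polynomial.lifts (algebraMap C F) := by
    rw [Polynomial.lifts_iff_coeff_lifts]
    intro i
    have hmem : Q.coeff i ∈ C := by
      rw [hQ, coeff_scaleRoots, hP'def, coeff_map, ← hP'def, hPdeg]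
      rcases lt_trichotomy i p.natDegree with hi | hi | hi
      · have h2 := hN i (N * (p.natDegree - i)) (Nat.le_mul_of_pos_right _ (by omega))
        rw [← pow_mul, mul_comm]
        exact h2
      · subst hi
        have : p.coeff p.natDegree = 1 := hp
        rw [this]
        simp
      · rw [coeff_eq_zero_of_natDegree_lt hi]
        simp
    exact ⟨⟨_, hmem⟩, rfl⟩
  obtain ⟨q, hq, -, hqm⟩ := Polynomial.lifts_and_natDegree_eq_and_monic hl hQm
  refine ⟨q, hqm, ?_⟩
  rw [← eval_map, hq]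
  exact hQb

variable {K₀ F : Type*} [Field K₀] [Field F] [Algebra K₀ F]

/-- `K₀[J] ⊆ K₀[x][1/g]` if `J g ∈ K₀[x]`. -/
theorem exists_pow_mul_mem_of_polyRing {C : Subring F} (hK : ∀ c : K₀, algebraMap K₀ F c ∈ C)
    {J g : F} (hg : g ∈ C) (hJg : J * g ∈ C) :
    ∀ a ∈ polyRing (⊤ : Subring K₀) J, ∃ d : ℕ, g ^ d * a ∈ C := by
  intro a ha
  obtain ⟨p, -, rfl⟩ := (mem_polyRing_iff _ J a).1 ha
  refine ⟨p.natDegree, ?_⟩
  rw [aeval_eq_sum_range, Finset.mul_sum]
  refine C.sum_mem fun i hi => ?_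
  have hi' : i ≤ p.natDegree := by
    have := Finset.mem_range.mp hi
    omega
  obtain ⟨k, hk⟩ := Nat.exists_eq_add_of_le hi'
  have h1 : g ^ p.natDegree * p.coeff i • J ^ i
      = algebraMap K₀ F (p.coeff i) * ((J * g) ^ i * g ^ k) := by
    rw [hk, Algebra.smul_def, pow_add, mul_pow]
    ring
  rw [h1]
  exact C.mul_mem (hK _) (C.mul_mem (C.pow_mem hJg _) (C.pow_mem hg _))

/-- **horizontal + vertical ⟹ integral**, for the chart of `J = P(x) / g(x)`, given the
`q`-expansion principle of the chart of `x`. -/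
theorem mem_chart_of_qep {A₀ : ValuationSubring K₀} {ϖ₀ : K₀} (h₀ : IsUnif A₀ ϖ₀) {ι : Type*}
    (V : ι → ValuationSubring F) {x J g : F}
    (hqep : ∀ y : F, algebraMap K₀ F ϖ₀ * y ∈ chart A₀.toSubring x → (∀ c, y ∈ V c) →
      y ∈ chart A₀.toSubring x)
    (hϖV : ∀ c, algebraMap K₀ F ϖ₀ ∈ V c)
    (hg : g ∈ chart (⊤ : Subring K₀) x) (hgV : ∀ c, g ∈ V c)
    (hJg : J * g ∈ chart (⊤ : Subring K₀) x)
    (hx : x ∈ chart A₀.toSubring J) (hginv : g⁻¹ ∈ chart A₀.toSubring J) (hg0 : g ≠ 0)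
    {z : F} (hz : z ∈ chart (⊤ : Subring K₀) J) (hzV : ∀ c, z ∈ V c) :
    z ∈ chart A₀.toSubring J := by
  -- step 1: `g ^ d * z` is horizontally integral over `K₀[x]`
  obtain ⟨d, hd⟩ := scale_mem (chart (⊤ : Subring K₀) x) (polyRing (⊤ : Subring K₀) J)
    (fun y hy => mem_chart_of_isIntegral_chart _ _ _ hy) hg
    (exists_pow_mul_mem_of_polyRing
      (fun c => polyRing_le_chart _ _ (algebraMap_mem_polyRing_top c)) hg hJg)
    ((mem_chart_iff_isIntegral _ _ _).1 hz)
  -- step 2: clear the denominators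
  have hϖ : algebraMap K₀ F ϖ₀ ∈ chart A₀.toSubring x := by
    apply polyRing_le_chart
    rw [mem_polyRing_iff]
    refine ⟨C ϖ₀, fun i => ?_, aeval_C x ϖ₀⟩
    rw [coeff_C]
    split_ifs
    · exact h₀.mem
    · exact A₀.zero_mem
  obtain ⟨m, hm⟩ := scale_mem (chart A₀.toSubring x) (polyRing (⊤ : Subring K₀) x)
    (fun y hy => mem_chart_of_isIntegral_chart _ _ _ hy) hϖ
    (fun a ha => by
      obtain ⟨n, hn⟩ := exists_pow_mul_mem_polyRing (x := x) h₀ a ha
      exact ⟨n, polyRing_le_chart _ _ hn⟩)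
    ((mem_chart_iff_isIntegral _ _ _).1 hd)
  -- step 3: descend with the `q`-expansion principle
  have hV : ∀ c, g ^ d * z ∈ V c := fun c => (V c).mul_mem _ _ ((V c).pow_mem (hgV c) d) (hzV c)
  have key : ∀ m : ℕ, algebraMap K₀ F ϖ₀ ^ m * (g ^ d * z) ∈ chart A₀.toSubring x →
      g ^ d * z ∈ chart A₀.toSubring x := by
    intro m
    induction m with
    | zero => intro h; rwa [pow_zero, one_mul] at h
    | succ k ih =>
      intro h
      apply ih
      apply hqep
      · rwa [← mul_assoc, ← pow_succ']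
      · intro c
        exact (V c).mul_mem _ _ ((V c).pow_mem (hϖV c) k) (hV c)
  have h1 : g ^ d * z ∈ chart A₀.toSubring J := chart_le_of_mem _ hx (key m hm)
  have h2 : z = g⁻¹ ^ d * (g ^ d * z) := by
    rw [← mul_assoc, ← mul_pow, inv_mul_cancel₀ hg0, one_pow, one_mul]
  rw [h2]
  exact Subring.mul_mem _ (Subring.pow_mem _ hginv d) h1

end Fermat.Agent.S36.Mod

end
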