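/-
S36, modular part, block ELTS = DER (owner helper208).  Horizontal part: the Hauptmodul `h` of the
auxiliary level is an unramified coordinate off the cusps, hence `d/dh` preserves the ring of the
functions which are regular off the cusps.
-/
import Fermat.Agent.S36.Mod.Elts.Defs
import Fermat.Agent.Lib.Theta.Place
import Fermat.Agent.Lib.Hauptmodul49.Bar
import Fermat.Agent.S18.Places.Dedekind
import Fermat.Agent.S18.Descent.Chart
import Fermat.Agent.S24.Formal

set_option autoImplicit false
set_option linter.unusedSectionVars false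
set_option linter.style.haveILetI false

noncomputable section

namespace Fermat.Agent.S36.Mod

open ModularCurve AlgebraicCurve Fermat.Agent.S24 Fermat.Agent.S24.FF Fermat.Agent.S18
  Fermat.Agent.Lib.Hauptmodul Fermat.Agent.Lib.Theta IntermediateField

variable {q M : ℕ} [NeZero M]

theorem transcendental_auxK (K : Type*) [Field K] [Algebra ℚ K] (h : Aux q M) :
    Transcendental K (auxK K h) := by
  intro halg
  have h1 : IsAlgebraic K ((auxK K h : FK K M) : LaurentSeries K) :=
    IsAlgebraic.algHom (FK K M).val halg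
  rw [coe_auxK] at h1
  by_cases hq : q = 2
  · subst hq
    rw [auxH_two] at h1
    exact transcendental_toL_h9Z K h1
  · rw [auxH_of_ne hq] at h1
    exact transcendental_toL_h4Z K h1

theorem finite_auxK (K : Type*) [Field K] [Algebra ℚ K] [Algebra K Kbar] (h : Aux q M) :
    FiniteDimensional K⟮auxK K h⟯ (FK K M) :=
  (isFF1_FK K M).finite _ (transcendental_auxK K h)

theorem baseChangeMap_auxK {K L : Type*} [Field K] [Algebra ℚ K] [Field L] [Algebra ℚ L]
    (φ : K →+* L) (h : Aux q M) :
    Descent.baseChangeMap (modularFunctionFieldFull M) φ (auxK K h) = auxK L h := by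
  ext1
  show coeffMap φ ((auxK K h : FK K M) : LaurentSeries K) = ((auxK L h : FK L M) : LaurentSeries L)
  rw [coe_auxK, coe_auxK, coeffMap_toL]

theorem auxK_bar_two (h : Aux 2 M) (h9 : 9 ∣ M) : (auxK Kbar h : FN M) = h9F M h9 := by
  apply Subtype.ext
  rw [coe_h9F]
  exact (coe_auxK Kbar h).trans (by rw [auxH_two])

theorem auxK_bar_of_ne (hq : q ≠ 2) (h : Aux q M) (h4 : 4 ∣ M) :
    (auxK Kbar h : FN M) = h4F M h4 := by
  apply Subtype.ext
  rw [coe_h4F]
  exact (coe_auxK Kbar h).trans (by rw [auxH_of_ne hq])

/-- **`h` is an unramified coordinate off the cusps.** -/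
theorem exists_ord_auxK_sub_eq_one (h : Aux q M) (v : Place Kbar (FN M))
    (hv : 0 ≤ v.ord (jF M)) :
    ∃ c : Kbar, v.ord ((auxK Kbar h : FN M) - algebraMap Kbar (FN M) c) = 1 := by
  haveI : IsFF1 Kbar (FN M) := Export.isFF1 M
  by_cases hq : q = 2
  · subst hq
    have h9 : 9 ∣ M := by simpa [Aux] using h
    rw [auxK_bar_two h h9]
    have hn := (not_congr (ord_jF_neg_iff_h9F M h9 v)).1 (not_lt.2 hv)
    push Not at hn
    obtain ⟨h0, h1⟩ := hn
    obtain ⟨c, hc⟩ := exists_const_of_ord_nonneg v (x := h9F M h9) (by rw [h0])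
    rcases hc with hc | hc
    · exact absurd (hc ▸ isAlgebraic_algebraMap (A := FN M) c) (transcendental_h9F M h9)
    · refine ⟨c, ord_h9F_sub_eq_one M h9 c ?_ ?_ v hc⟩
      · rintro rfl
        rw [map_zero, sub_zero, h0] at hc
        exact lt_irrefl _ hc
      · intro hc0
        apply not_lt.2 h1
        have e : 1 + 9 * h9F M h9 + 27 * h9F M h9 ^ 2
            = (h9F M h9 - algebraMap Kbar (FN M) c) *
              (9 + 27 * (h9F M h9 + algebraMap Kbar (FN M) c)) := by
          have e0 : algebraMap Kbar (FN M) (1 + 9 * c + 27 * c ^ 2) = 0 := by rw [hc0, map_zero]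
          simp only [map_add, map_mul, map_pow, map_one, map_ofNat] at e0
          linear_combination e0
        have hne : 1 + 9 * h9F M h9 + 27 * h9F M h9 ^ 2 ≠ 0 := by
          intro h00
          apply transcendental_h9F M h9
          refine ⟨Polynomial.C 1 + Polynomial.C 9 * Polynomial.X + Polynomial.C 27 * Polynomial.X ^ 2,
            ?_, ?_⟩
          · intro hp
            have := congrArg (fun p => Polynomial.coeff p 0) hp
            simp at this
          · simpa [map_ofNat] using h00
        rw [e] at hne ⊢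
        have hl := left_ne_zero_of_mul hne
        have hr := right_ne_zero_of_mul hne
        rw [v.ord_mul hl hr]
        have h2 : 0 ≤ v.ord (9 + 27 * (h9F M h9 + algebraMap Kbar (FN M) c)) := by
          apply ord_nonneg_of_mem
          have hm : h9F M h9 ∈ v.toValuationSubring := mem_of_ord_nonneg v (by rw [h0])
          have hcm : algebraMap Kbar (FN M) c ∈ v.toValuationSubring :=
            mem_of_ord_nonneg v (by rw [ord_algebraMap])
          have h9m : (9 : FN M) ∈ v.toValuationSubring := by
            have := natCast_mem v.toValuationSubring 9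
            simpa using this
          have h27m : (27 : FN M) ∈ v.toValuationSubring := by
            have := natCast_mem v.toValuationSubring 27
            simpa using this
          exact add_mem h9m (mul_mem h27m (add_mem hm hcm))
        omega
  · have h4 : 4 ∣ M := by simpa [Aux, hq] using h
    rw [auxK_bar_of_ne hq h h4]
    have hn := (not_congr (ord_jF_neg_iff_h4F M h4 v)).1 (not_lt.2 hv)
    push Not at hn
    obtain ⟨h0, h1⟩ := hn
    obtain ⟨c, hc⟩ := exists_const_of_ord_nonneg v (x := h4F M h4) (by rw [h0])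
    rcases hc with hc | hc
    · exact absurd (hc ▸ isAlgebraic_algebraMap (A := FN M) c) (transcendental_h4F M h4)
    · refine ⟨c, ord_h4F_sub_eq_one M h4 c ?_ ?_ v hc⟩
      · rintro rfl
        rw [map_zero, sub_zero, h0] at hc
        exact lt_irrefl _ hc
      · intro hc0
        apply not_lt.2 h1
        have e : 1 + 16 * h4F M h4 = algebraMap Kbar (FN M) 16 *
            (h4F M h4 - algebraMap Kbar (FN M) c) := by
          have e0 : algebraMap Kbar (FN M) (16 * c + 1) = 0 := by rw [hc0, map_zero]
          simp only [map_add, map_mul, map_one, map_ofNat] at e0 ⊢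
          linear_combination e0
        have h16 : algebraMap Kbar (FN M) 16 ≠ 0 := by
          rw [map_ne_zero]; norm_num
        rw [e, v.ord_mul h16 (ne_zero_of_ord_ne_zero v hc.ne'), ord_algebraMap, zero_add]
        exact hc

/-- `d/dh` preserves the functions regular off the cusps, over `ℚ̄`. -/
theorem dd_auxK_mem_chart_top_bar (h : Aux q M) {b : FN M}
    (hb : b ∈ chart (⊤ : Subring Kbar) (jF M)) :
    dd Kbar (auxK Kbar h : FN M) b ∈ chart (⊤ : Subring Kbar) (jF M) := by
  haveI : IsFF1 Kbar (FN M) := Export.isFF1 M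
  have hj : Transcendental Kbar (jF M) := Formal.transcendental_jF M
  haveI : FiniteDimensional Kbar⟮jF M⟯ (FN M) := IsFF1.finite _ hj
  haveI : FiniteDimensional Kbar⟮(auxK Kbar h : FN M)⟯ (FN M) :=
    IsFF1.finite _ (transcendental_auxK Kbar h)
  rw [mem_chart_top_iff_places hj] at hb ⊢
  intro v hv
  obtain ⟨c, hc⟩ := exists_ord_auxK_sub_eq_one h v hv
  exact ord_nonneg_of_mem v
    (dd_mem_place _ (transcendental_auxK Kbar h) v c hc (mem_of_ord_nonneg v (hb v hv)))

theorem baseChangeMap_jK_bar' (K : Type*) [Field K] [Algebra ℚ K]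
    (φ : K →+* Kbar) : Descent.baseChangeMap (modularFunctionFieldFull M) φ (jK K M) = jF M := by
  ext1
  show coeffMap φ (coeffEmb K jq) = coeffEmb Kbar (qExpand ℚ 1 jq)
  rw [Descent.coeffMap_coeffEmb', qExpand_one_apply]

theorem isAlgebraic_Kbar_of_algebra' (K : Type*) [Field K] [Algebra ℚ K] [Algebra K Kbar] :
    Algebra.IsAlgebraic K Kbar := by
  have : IsScalarTower ℚ K Kbar := IsScalarTower.of_algebraMap_eq' (Subsingleton.elim _ _)
  have h2 : Algebra.IsAlgebraic ℚ Kbar := AlgebraicClosure.isAlgebraic ℚ
  exact Algebra.IsAlgebraic.tower_top (K := ℚ) K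

/-- base change of `d/dh` -/
theorem baseChangeMap_dd_auxK (K : Type*) [Field K] [Algebra ℚ K] [Algebra K Kbar] (h : Aux q M)
    (b : FK K M) :
    Descent.baseChangeMap (modularFunctionFieldFull M) (algebraMap K Kbar) (dd K (auxK K h) b)
      = dd Kbar (auxK Kbar h : FN M)
          (Descent.baseChangeMap (modularFunctionFieldFull M) (algebraMap K Kbar) b) := by
  haveI : CharZero K := algebraRat.charZero K
  haveI := finite_auxK K h
  haveI : IsFF1 Kbar (FN M) := Export.isFF1 M
  haveI : FiniteDimensional Kbar⟮(auxK Kbar h : FN M)⟯ (FN M) :=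
    IsFF1.finite _ (transcendental_auxK Kbar h)
  have hc := chain_rule (auxK K h) (transcendental_auxK K h)
    (Descent.baseChangeMap (modularFunctionFieldFull M) (algebraMap K Kbar))
    ((dd Kbar (auxK Kbar h : FN M)).restrictScalars ℤ)
    (fun c => by
      rw [Descent.baseChangeMap_algebraMap]
      exact Derivation.map_algebraMap _ _) b
  rw [baseChangeMap_auxK] at hc
  have h1 : dd Kbar (auxK Kbar h : FN M) (auxK Kbar h : FN M) = 1 :=
    dd_self _ (transcendental_auxK Kbar h)
  have hc' : dd Kbar (auxK Kbar h : FN M)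
      (Descent.baseChangeMap (modularFunctionFieldFull M) (algebraMap K Kbar) b)
      = Descent.baseChangeMap (modularFunctionFieldFull M) (algebraMap K Kbar) (dd K (auxK K h) b)
        * dd Kbar (auxK Kbar h : FN M) (auxK Kbar h : FN M) := hc
  rw [hc', h1, mul_one]

/-- **`d/dh` preserves the functions regular off the cusps**, over any `K ⊆ ℚ̄`. -/
theorem dd_auxK_mem_chart_top (K : Type*) [Field K] [Algebra ℚ K] [Algebra K Kbar] (h : Aux q M)
    {b : FK K M} (hb : b ∈ chart (⊤ : Subring K) (jK K M)) :
    dd K (auxK K h) b ∈ chart (⊤ : Subring K) (jK K M) := by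
  have := isAlgebraic_Kbar_of_algebra' K
  have key := fun z => S18.mem_chart_top_descent
    (Descent.baseChangeMap (modularFunctionFieldFull M) (algebraMap K Kbar))
    (fun c => Descent.baseChangeMap_algebraMap _ c) (jK K M) z
  rw [key, baseChangeMap_jK_bar'] at hb ⊢
  rw [baseChangeMap_dd_auxK]
  exact dd_auxK_mem_chart_top_bar h hb

end Fermat.Agent.S36.Mod

end
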