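/-
S36, modular part, block ELTS = DER (owner helper208).  Node ELTS-4: level `N0 q`.
The statements are frozen interfaces (proofs: helper195, shadow of task 2365).
-/
import Fermat.Agent.S36.Mod.Elts.IntRes
import Fermat.Agent.S36.Mod.Rel
import Fermat.Agent.S36.Mod.Table.Const

set_option autoImplicit false
set_option linter.unusedSectionVars false

noncomputable section

namespace Fermat.Agent.S36.Mod

open ModularCurve Fermat.Agent.S24 Fermat.Agent.S18 Fermat.Agent.S18.Vert
  Fermat.Agent.Lib.Hauptmodul Fermat.Agent.Lib.Theta IntermediateField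

/-- `Lib.Theta.chain_rule` for a bare additive Leibniz map (avoids the choice of a `ℤ`-algebra
structure on the target). -/
theorem Level1.chain_rule_fun {K F : Type*} [Field K] [CharZero K] [Field F] [Algebra K F]
    {E : Type*} [CommRing E] (x : F) (hx : Transcendental K x)
    [FiniteDimensional K⟮x⟯ F] (e : F →+* E) (δ : E → E)
    (hadd : ∀ a b, δ (a + b) = δ a + δ b) (hmul : ∀ a b, δ (a * b) = a * δ b + b * δ a)
    (hc : ∀ c : K, δ (e (algebraMap K F c)) = 0) (f : F) :
    δ (e f) = e (dd K x f) * δ (e x) :=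
  chain_rule x hx e
    (Derivation.mk' (AddMonoidHom.mk' δ hadd).toIntLinearMap hmul) hc f

/-- the chain rule for `θ` along an embedding in `K((t))` over `K`. -/
theorem Level1.chain_theta {K F : Type*} [Field K] [CharZero K] [Field F] [Algebra K F]
    (x : F) (hx : Transcendental K x) [FiniteDimensional K⟮x⟯ F]
    (e : F →+* LaurentSeries K)
    (he : ∀ c : K, e (algebraMap K F c) = algebraMap K (LaurentSeries K) c) (f : F) :
    theta (e f) = e (dd K x f) * theta (e x) :=
  Level1.chain_rule_fun x hx e (fun a => theta a) (fun a b => map_add _ a b)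
    (fun a b => theta.leibniz a b) (fun c => by
      show theta (e (algebraMap K F c)) = 0
      rw [he, theta_algebraMap]) f

namespace Setup

variable {K K' : Type*} [Field K] [Field K'] [Algebra ℚ K] [Algebra ℚ K'] [Algebra K Kbar]
  [Algebra K' Kbar] (S : Setup K K') (haux : Aux S.q S.N0)

/-! ### the homomorphisms -/

/- `w1_al0`, `w1_be0`, `w1_w1` : see `S36/Mod/Rel.lean` (same names and statements). -/

theorem e1oo_al0 (f : S.F0) : S.e1oo.toHom (S.al0 f) = S.e0.toHom f := S.coe_al0 f

theorem e1oo_be0 (f : S.F0) : S.e1oo.toHom (S.be0 f) = qExpand K S.q (S.e0.toHom f) := S.coe_be0 f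

theorem e10_al0 (f : S.F0) : S.e10.toHom (S.al0 f) = qExpand K S.q (S.e0.toHom f) := by
  change S.e1oo.toHom (S.w1 (S.al0 f)) = _
  rw [S.w1_al0, S.e1oo_be0]

theorem e10_be0 (f : S.F0) : S.e10.toHom (S.be0 f) = S.e0.toHom f := by
  change S.e1oo.toHom (S.w1 (S.be0 f)) = _
  rw [S.w1_be0, S.e1oo_al0]

/-! ### the Hauptmodul -/

theorem e0_hh : S.e0.toHom (S.hh haux) = cz K (HZ S.q) := by
  rw [cz_HZ]
  exact coe_auxK K haux

/-- its expansion `t + ...` is not algebraic over the constants
(e.g. `transcendental_toL_h4Z`, `transcendental_toL_h9Z` of `Lib/Hauptmodul49/AnyRing.lean`). -/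
theorem transcendental_hh : Transcendental K (S.hh haux) := by
  have h1 : Transcendental K (cz K (HZ S.q)) := by
    refine transcendental_of_coeff _ (fun k hk => ?_) ?_
    · rw [coeffMap_coeff, coeff_HZ_of_lt S.q hk, map_zero]
    · rw [coeffMap_coeff, coeff_HZ_one, map_one]
  rw [← S.e0_hh haux] at h1
  intro h
  exact h1 ((isAlgebraic_algHom_iff S.F0.val S.F0.val.injective).2 h)

theorem transcendental_h0 : Transcendental K (S.h0 haux) := fun h =>
  S.transcendental_hh haux ((isAlgebraic_algHom_iff S.al0 S.al0.injective).1 h)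

theorem transcendental_h1 : Transcendental K (S.h1 haux) := fun h =>
  S.transcendental_hh haux ((isAlgebraic_algHom_iff S.be0 S.be0.injective).1 h)

/-- `isFF1_FK` -/
theorem finite_hh : FiniteDimensional K⟮S.hh haux⟯ S.F0 :=
  (isFF1_FK K S.N0).finite _ (S.transcendental_hh haux)

theorem finite_h0 : FiniteDimensional K⟮S.h0 haux⟯ S.F1 :=
  (isFF1_FK K (S.N0 * S.q)).finite _ (S.transcendental_h0 haux)

theorem finite_h1 : FiniteDimensional K⟮S.h1 haux⟯ S.F1 :=
  (isFF1_FK K (S.N0 * S.q)).finite _ (S.transcendental_h1 haux)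

theorem w1_h0 : S.w1 (S.h0 haux) = S.h1 haux := S.w1_al0 _

theorem w1_h1 : S.w1 (S.h1 haux) = S.h0 haux := S.w1_be0 _

/-! ### `κ` -/

/-- `dd_mul_dd_self` -/
theorem kap_mul_kap' : S.kap haux * S.kap' haux = ((S.q : ℕ) : S.F1) ^ 2 := by
  have : CharZero K := algebraRat.charZero K
  have := S.finite_h0 haux
  have := S.finite_h1 haux
  have h := dd_mul_dd_self (K := K) (S.transcendental_h1 haux) (S.transcendental_h0 haux)
  rw [kap, kap']
  linear_combination ((S.q : ℕ) : S.F1) ^ 2 * h

/-- `map_dd` for `σ = w1` -/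
theorem w1_kap : S.w1 (S.kap haux) = S.kap' haux := by
  have : CharZero K := algebraRat.charZero K
  have := S.finite_h1 haux
  have : FiniteDimensional K⟮S.w1 (S.h1 haux)⟯ S.F1 := by
    rw [S.w1_h1 haux]
    exact S.finite_h0 haux
  rw [kap, kap', map_mul, map_natCast, map_dd S.w1 (S.transcendental_h1 haux), S.w1_h1 haux,
    S.w1_h0 haux]

theorem w1_kap' : S.w1 (S.kap' haux) = S.kap haux := by
  rw [← S.w1_kap haux, S.w1_w1]

/-- **the expansion of `κ`**: `chain_rule` with `x = h1`, `e = e1oo.toHom`,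
`δ = theta.restrictScalars ℤ`: `θ(H) = e(dh0/dh1) * θ(H(t^q)) = e(dh0/dh1) * q * (θH)(t^q)`; then
`kapZ_mul_qExpand` and cancellation of the unit `(θH)(t^q)`. -/
theorem e1oo_kap : S.e1oo.toHom (S.kap haux) = cz K (kapZ S.q) := by
  have : CharZero K := algebraRat.charZero K
  have := S.finite_h1 haux
  have h' := Level1.chain_theta (S.h1 haux) (S.transcendental_h1 haux) S.e1oo.toHom
    (fun c => rfl) (S.h0 haux)
  rw [h0, h1, S.e1oo_al0, S.e1oo_be0, S.e0_hh haux, theta_qExpand, theta_cz] at h'
  have h2 := congrArg (cz K) (kapZ_mul_qExpand S.q)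
  rw [map_mul, cz_qExpand] at h2
  have h3 : qExpand K S.q (cz K (thZ S.q)) ≠ 0 := by
    intro h0
    exact cz_ne_zero_of_mul_eq_one K (thZ_mul_thZi S.q)
      (qExpand_injective (R := K) (N := S.q) (by rw [h0, map_zero]))
  apply mul_right_cancel₀ h3
  rw [h2, kap, map_mul, map_natCast]
  change _ = cz K (theta (HZ S.q))
  rw [h']
  change _ * S.e1oo.toHom (dd K (S.be0 (S.hh haux)) (S.al0 (S.hh haux))) *
    qExpand K S.q (cz K (theta (HZ S.q))) = _
  ring

theorem e10_kap' : S.e10.toHom (S.kap' haux) = cz K (kapZ S.q) := by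
  change S.e1oo.toHom (S.w1 (S.kap' haux)) = _
  rw [S.w1_kap' haux, S.e1oo_kap haux]

theorem kap_ne_zero : S.kap haux ≠ 0 := by
  intro h0
  have h := S.e1oo_kap haux
  rw [h0, map_zero] at h
  exact cz_ne_zero_of_mul_eq_one K (kapZ_mul_kapZi S.q) h.symm

theorem kap'_ne_zero : S.kap' haux ≠ 0 := by
  intro h0
  have h := S.e10_kap' haux
  rw [h0, map_zero] at h
  exact cz_ne_zero_of_mul_eq_one K (kapZ_mul_kapZi S.q) h.symm

/-- the chain rule for `d/dh` at level `N0`, in the shape used by `IntEmb.der_mem` -/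
theorem theta_e0 (f : S.F0) :
    theta (S.e0.toHom f) = S.e0.toHom (dd K (S.hh haux) f) * theta (S.e0.toHom (S.hh haux)) := by
  have : CharZero K := algebraRat.charZero K
  have := S.finite_hh haux
  exact Level1.chain_theta (S.hh haux) (S.transcendental_hh haux) S.e0.toHom (fun c => rfl) f

/-- the residue fields have characteristic `q` -/
theorem charP_resB : CharP (IsLocalRing.ResidueField S.B) S.q := by
  rw [CharP.charP_iff_prime_eq_zero S.hq, ← map_natCast (IsLocalRing.residue S.B),
    IsLocalRing.residue_eq_zero_iff, IsLocalRing.mem_maximalIdeal, mem_nonunits_iff]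
  exact S.unif.not_isUnit

/- `charP_kk` : see `S36/Mod/Table/Const.lean` (same name and statement). -/

end Setup

end Fermat.Agent.S36.Mod

end
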