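/-
S36, modular part, block ELTS = DER (owner helper208).  Node ELTS-5: level `N0 q q`, the expansions
of the vertical elements at the three embeddings `e20`, `e11`, `e02`.
Proofs: helper161.
Every proof is a rewriting with `HalfInst/Compose.lean` (`e20_al1`, `e20_be1`, `e02_al1`, `e02_be1`,
`e11_al1`, `e11_be1`) and `Elts/Level1.lean`.
-/
import Fermat.Agent.S36.Mod.Elts.Level1
import Fermat.Agent.S36.Mod.HalfInst.Compose

set_option autoImplicit false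
set_option linter.unusedSectionVars false

noncomputable section

namespace Fermat.Agent.S36.Mod

open ModularCurve Fermat.Agent.S24 Fermat.Agent.S18 Fermat.Agent.S18.Vert
  Fermat.Agent.Lib.Hauptmodul Fermat.Agent.Lib.Theta

namespace Setup

variable {K K' : Type*} [Field K] [Field K'] [Algebra ℚ K] [Algebra ℚ K'] [Algebra K Kbar]
  [Algebra K' Kbar] (S : Setup K K') (haux : Aux S.q S.N0)

/-! ### products -/

theorem X₁_mul_Y₁ : S.X₁ haux * S.Y₁ haux = ((S.q : ℕ) : S.F2) ^ 2 := by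
  rw [X₁, Y₁, ← map_mul, kap_mul_kap', map_pow, map_natCast]

theorem X₂_mul_Y₂ : S.X₂ haux * S.Y₂ haux = ((S.q : ℕ) : S.F2) ^ 2 := by
  rw [X₂, Y₂, ← map_mul, kap_mul_kap', map_pow, map_natCast]

/-- `al_be` -/
theorem T1_eq : S.T1 haux = S.be1 (S.h0 haux) := by
  rw [T1, h1, h0]
  exact al_be S.N0 S.q _

/-! ### the component `(2,0)` -/

theorem e20_X₁ : S.e20.toHom (S.X₁ haux) = cz K (kapZ S.q) := by
  rw [X₁, e20_al1, e1oo_kap]

theorem e20_X₂ : S.e20.toHom (S.X₂ haux) = cz K (qExpand ℤ S.q (kapZ S.q)) := by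
  rw [X₂, e20_be1, e1oo_kap, cz_qExpand]

theorem e20_T0 : S.e20.toHom (S.T0 haux) = cz K (HZ S.q) := by
  rw [T0, h0, e20_al1, e1oo_al0, e0_hh]

theorem e20_T1 : S.e20.toHom (S.T1 haux) = cz K (qExpand ℤ S.q (HZ S.q)) := by
  rw [T1, h1, e20_al1, e1oo_be0, e0_hh, cz_qExpand]

theorem e20_T2 : S.e20.toHom (S.T2 haux) = cz K (qExpand ℤ S.q (qExpand ℤ S.q (HZ S.q))) := by
  rw [T2, h1, e20_be1, e1oo_be0, e0_hh, cz_qExpand, cz_qExpand]

/-! ### the component `(0,2)` -/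

theorem e02_Y₁ : S.e02.toHom (S.Y₁ haux) = cz K (qExpand ℤ S.q (kapZ S.q)) := by
  rw [Y₁, e02_al1, e10_kap', cz_qExpand]

theorem e02_Y₂ : S.e02.toHom (S.Y₂ haux) = cz K (kapZ S.q) := by
  rw [Y₂, e02_be1, e10_kap']

theorem e02_T0 : S.e02.toHom (S.T0 haux) = cz K (qExpand ℤ S.q (qExpand ℤ S.q (HZ S.q))) := by
  rw [T0, h0, e02_al1, e10_al0, e0_hh, cz_qExpand, cz_qExpand]

theorem e02_T1 : S.e02.toHom (S.T1 haux) = cz K (qExpand ℤ S.q (HZ S.q)) := by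
  rw [T1, h1, e02_al1, e10_be0, e0_hh, cz_qExpand]

theorem e02_T2 : S.e02.toHom (S.T2 haux) = cz K (HZ S.q) := by
  rw [T2, h1, e02_be1, e10_be0, e0_hh]

/-- `e02 ∘ be1 ∘ be0` is the standard expansion of level `N0` -/
theorem e02_be1_be0 (f : S.F0) : S.e02.toHom (S.be1 (S.be0 f)) = S.e0.toHom f := by
  rw [e02_be1, e10_be0]

/-- `e20 ∘ al1 ∘ al0` is the standard expansion of level `N0` -/
theorem e20_al1_al0 (f : S.F0) : S.e20.toHom (S.al1 (S.al0 f)) = S.e0.toHom f := by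
  rw [e20_al1, e1oo_al0]

/-! ### the middle component -/

theorem e11_X₁ : S.e11.toHom (S.X₁ haux) = cz K' (kapZ S.q) := by
  rw [X₁, e11_al1, e1oo_kap, coeffMap_cz]

theorem e11_Y₂ : S.e11.toHom (S.Y₂ haux) = S24.B.twist S.ζ (cz K' (kapZ S.q)) := by
  rw [Y₂, e11_be1, e10_kap', coeffMap_cz]

theorem e11_T0 : S.e11.toHom (S.T0 haux) = cz K' (HZ S.q) := by
  rw [T0, h0, e11_al1, e1oo_al0, e0_hh, coeffMap_cz]

theorem e11_T1 : S.e11.toHom (S.T1 haux) = cz K' (qExpand ℤ S.q (HZ S.q)) := by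
  rw [T1, h1, e11_al1, e1oo_be0, e0_hh, ← cz_qExpand, coeffMap_cz]

theorem e11_T2 : S.e11.toHom (S.T2 haux) = S24.B.twist S.ζ (cz K' (HZ S.q)) := by
  rw [T2, h1, e11_be1, e10_be0, e0_hh, coeffMap_cz]

end Setup

end Fermat.Agent.S36.Mod

end
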