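/-
S36, modular part, block ELTS = DER (owner helper208).  Node ELTS-6: vertical orders and the three
Frobenius/twist congruences.
The statements are frozen interfaces (proved by helper255, task 2367).
Tools: `Elts/Level2.lean` (expansions), `Elts/IntRes.lean` (`val_eq_one_of_cz`, `mem_val_of_cz`,
`res_of_cz`, `val_sub_lt_one_iff`, `res_of_twist_cz`), `Elts/Series.lean` (`kapZ_mul_kapZi`,
`cz_qExpand_eq_pow`, `cz_qExpand`), `charP_resB`, `charP_kk`.  Recall `S.V20 = S.e20.val` etc. by `rfl`.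
-/
import Fermat.Agent.S36.Mod.Elts.Level2
import Fermat.Agent.S36.Mod.HalfInst.Unif

set_option autoImplicit false
set_option linter.unusedSectionVars false

noncomputable section

namespace Fermat.Agent.S36.Mod

open ModularCurve Fermat.Agent.S24 Fermat.Agent.S18 Fermat.Agent.S18.Vert
  Fermat.Agent.Lib.Hauptmodul Fermat.Agent.Lib.Theta

/-! ### auxiliary lemmas -/

section Vert1Aux

variable {K₁ : Type*} [Field K₁] {A₁ : ValuationSubring K₁} [IsDiscreteValuationRing A₁]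
  {F₁ : Type*} [Field F₁] (φ : IntEmb A₁ F₁)

private theorem Vert1_cong {f g : F₁} {P Q : LaurentSeries ℤ} (hf : φ.toHom f = cz K₁ P)
    (hg : φ.toHom g = cz K₁ Q)
    (h : cz (IsLocalRing.ResidueField A₁) P = cz (IsLocalRing.ResidueField A₁) Q) :
    φ.val.valuation (f - g) < 1 := by
  rw [φ.val_sub_lt_one_iff (φ.mem_val_of_cz hf) (φ.mem_val_of_cz hg), φ.res_of_cz hf,
    φ.res_of_cz hg, h]

private theorem Vert1_unit {f : F₁} {P : LaurentSeries ℤ} (hf : φ.toHom f = cz K₁ P)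
    (h : cz (IsLocalRing.ResidueField A₁) P ≠ 0) : φ.val.valuation f = 1 := by
  rw [φ.val_eq_one_iff (φ.mem_val_of_cz hf), φ.res_of_cz hf]
  exact h

private theorem Vert1_unit' {f : F₁} {P : LaurentSeries ℤ} (hf : φ.toHom f = cz K₁ P)
    (h : IsUnit P) : φ.val.valuation f = 1 := by
  obtain ⟨Q, hQ⟩ := h.exists_right_inv
  exact φ.val_eq_one_of_cz hf hQ

private theorem Vert1_unit_twist (ζ : K₁ˣ) (hζ : (ζ : K₁) ∈ A₁) (hζ' : ((ζ⁻¹ : K₁ˣ) : K₁) ∈ A₁)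
    (h1 : (ζ : K₁) - 1 ∈ A₁.nonunits) {f : F₁} {P : LaurentSeries ℤ}
    (hf : φ.toHom f = S24.B.twist ζ (cz K₁ P)) (h : IsUnit P) : φ.val.valuation f = 1 := by
  obtain ⟨Q, hQ⟩ := h.exists_right_inv
  rw [φ.val_eq_one_iff (φ.mem_val_of_twist_cz ζ hζ hζ' hf), φ.res_of_twist_cz ζ hζ hζ' h1 hf]
  exact cz_ne_zero_of_mul_eq_one _ hQ

private theorem Vert1_res_sub {f g : F₁} (hf : f ∈ φ.val) (hg : g ∈ φ.val) :
    φ.res ⟨f - g, sub_mem hf hg⟩ = φ.res ⟨f, hf⟩ - φ.res ⟨g, hg⟩ :=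
  map_sub φ.res ⟨f, hf⟩ ⟨g, hg⟩

end Vert1Aux

section Vert1Series

variable (k : Type*) [CommRing k] (q : ℕ) [NeZero q]

private theorem Vert1_frob (hq : q.Prime) [CharP k q] (P : LaurentSeries ℤ) :
    cz k (qExpand ℤ q P) = cz k P ^ q := by
  have : Fact q.Prime := ⟨hq⟩
  rw [cz_qExpand, ← cz_qExpand_eq_pow]

private theorem Vert1_gg_ne [Nontrivial k] (hq : q.Prime) [CharP k q] :
    cz k (HZ q) - cz k (qExpand ℤ q (HZ q)) ^ q ≠ 0 := by
  intro h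
  have h1 := congrArg (fun s => HahnSeries.coeff s 1) h
  simp only [HahnSeries.coeff_sub, HahnSeries.coeff_zero] at h1
  have hnd : ¬ ((q : ℕ) : ℤ) ∣ 1 := by
    intro hd
    have := Int.natCast_dvd_natCast.1 (by simpa using hd : ((q : ℕ) : ℤ) ∣ ((1 : ℕ) : ℤ))
    exact hq.one_lt.ne' (Nat.dvd_one.1 this)
  rw [← Vert1_frob k q hq, cz_qExpand, qExpand_coeff_of_not_dvd _ _ hnd, sub_zero, coeffMap_coeff,
    coeff_HZ_one, map_one] at h1
  exact one_ne_zero h1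

private theorem Vert1_gg'_ne [Nontrivial k] (hq : q.Prime) [CharP k q] :
    cz k (qExpand ℤ q (HZ q)) - cz k (qExpand ℤ q (qExpand ℤ q (HZ q))) ^ q ≠ 0 := by
  have h1 : cz k (qExpand ℤ q (HZ q)) - cz k (qExpand ℤ q (qExpand ℤ q (HZ q))) ^ q =
      qExpand k q (cz k (HZ q) - cz k (qExpand ℤ q (HZ q)) ^ q) := by
    rw [map_sub, map_pow, ← cz_qExpand, ← cz_qExpand]
  rw [h1]
  intro h
  exact Vert1_gg_ne k q hq (qExpand_injective q (by rw [h, map_zero]))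

end Vert1Series

namespace Setup

variable {K K' : Type*} [Field K] [Field K'] [Algebra ℚ K] [Algebra ℚ K'] [Algebra K Kbar]
  [Algebra K' Kbar] (S : Setup K K') (haux : Aux S.q S.N0)

/-! ### units -/

theorem val20_X₁ : S.V20.valuation (S.X₁ haux) = 1 := by
  exact S.e20.val_eq_one_of_cz (S.e20_X₁ haux) (kapZ_mul_kapZi S.q)

theorem val20_X₂ : S.V20.valuation (S.X₂ haux) = 1 := by
  refine S.e20.val_eq_one_of_cz (Q := qExpand ℤ S.q (kapZi S.q)) (S.e20_X₂ haux) ?_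
  rw [← map_mul, kapZ_mul_kapZi, map_one]

theorem val11_X₁ : S.V11.valuation (S.X₁ haux) = 1 := by
  exact S.e11.val_eq_one_of_cz (S.e11_X₁ haux) (kapZ_mul_kapZi S.q)

theorem val11_Y₂ : S.V11.valuation (S.Y₂ haux) = 1 := by
  exact Vert1_unit_twist S.e11 S.ζ S.zeta_mem S.zeta_inv_mem S.Unif_zeta_sub_one_nonunit
    (S.e11_Y₂ haux) (IsUnit.of_mul_eq_one _ (kapZ_mul_kapZi S.q))

theorem val02_Y₁ : S.V02.valuation (S.Y₁ haux) = 1 := by
  refine S.e02.val_eq_one_of_cz (Q := qExpand ℤ S.q (kapZi S.q)) (S.e02_Y₁ haux) ?_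
  rw [← map_mul, kapZ_mul_kapZi, map_one]

theorem val02_Y₂ : S.V02.valuation (S.Y₂ haux) = 1 := by
  exact S.e02.val_eq_one_of_cz (S.e02_Y₂ haux) (kapZ_mul_kapZi S.q)

/-! ### congruences -/

/-- `κ(t^q) ≡ κ(t)^q` -/
theorem cong20 : S.V20.valuation (S.X₂ haux - S.X₁ haux ^ S.q) < 1 := by
  have := S.charP_resB
  refine Vert1_cong S.e20 (Q := kapZ S.q ^ S.q) (S.e20_X₂ haux) ?_ ?_
  · rw [map_pow, S.e20_X₁ haux, map_pow]
  · rw [Vert1_frob _ S.q S.hq, map_pow]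

/-- `κ(ζ t) ≡ κ(t)` -/
theorem cong11 : S.V11.valuation (S.Y₂ haux - S.X₁ haux) < 1 := by
  show S.e11.val.valuation _ < 1
  rw [S.e11.val_sub_lt_one_iff
      (S.e11.mem_val_of_twist_cz S.ζ S.zeta_mem S.zeta_inv_mem (S.e11_Y₂ haux))
      (S.e11.mem_val_of_cz (S.e11_X₁ haux)),
    S.e11.res_of_twist_cz S.ζ S.zeta_mem S.zeta_inv_mem S.Unif_zeta_sub_one_nonunit (S.e11_Y₂ haux),
    S.e11.res_of_cz (S.e11_X₁ haux)]

/-- `κ(t^q) ≡ κ(t)^q` -/
theorem cong02 : S.V02.valuation (S.Y₁ haux - S.Y₂ haux ^ S.q) < 1 := by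
  have := S.charP_resB
  refine Vert1_cong S.e02 (Q := kapZ S.q ^ S.q) (S.e02_Y₁ haux) ?_ ?_
  · rw [map_pow, S.e02_Y₂ haux, map_pow]
  · rw [Vert1_frob _ S.q S.hq, map_pow]

/-! ### `gg = T2 - T1^q`, `gg' = T1 - T2^q` -/

/-- expansion `H(t^q) - H(t^{q²})^q = t^q + ...` : the coefficient of `t^q` of the reduction is `1`
-/
theorem val20_gg' : S.V20.valuation (S.gg' haux) = 1 := by
  have := S.charP_resB
  refine Vert1_unit S.e20
    (P := qExpand ℤ S.q (HZ S.q) - qExpand ℤ S.q (qExpand ℤ S.q (HZ S.q)) ^ S.q) ?_ ?_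
  · rw [gg', map_sub, map_pow, S.e20_T1 haux, S.e20_T2 haux, map_sub, map_pow]
  · rw [map_sub, map_pow]
    exact Vert1_gg'_ne _ S.q S.hq

/-- residue `H(t) - H(t^q)^q = t + ...` -/
theorem val11_gg : S.V11.valuation (S.gg haux) = 1 := by
  have := S.charP_kk
  have h2 := S.e11.mem_val_of_twist_cz S.ζ S.zeta_mem S.zeta_inv_mem (S.e11_T2 haux)
  have e1 : S.e11.toHom (S.T1 haux ^ S.q) = cz K' (qExpand ℤ S.q (HZ S.q) ^ S.q) := by
    rw [map_pow, S.e11_T1 haux, map_pow]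
  show S.e11.val.valuation (S.T2 haux - S.T1 haux ^ S.q) = 1
  rw [S.e11.val_eq_one_iff (sub_mem h2 (S.e11.mem_val_of_cz e1)),
    Vert1_res_sub S.e11 h2 (S.e11.mem_val_of_cz e1),
    S.e11.res_of_twist_cz S.ζ S.zeta_mem S.zeta_inv_mem S.Unif_zeta_sub_one_nonunit (S.e11_T2 haux),
    S.e11.res_of_cz e1, map_pow]
  exact Vert1_gg_ne _ S.q S.hq

/-- expansion `H(t) - H(t^q)^q = t + ...` -/
theorem val02_gg : S.V02.valuation (S.gg haux) = 1 := by
  have := S.charP_resB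
  refine Vert1_unit S.e02 (P := HZ S.q - qExpand ℤ S.q (HZ S.q) ^ S.q) ?_ ?_
  · rw [gg, map_sub, map_pow, S.e02_T1 haux, S.e02_T2 haux, map_sub, map_pow]
  · rw [map_sub, map_pow]
    exact Vert1_gg_ne _ S.q S.hq

/-- expansion `H(t^{q²}) - H(t^q)^q = q ψ(t^q)` -/
theorem val20_gg : S.V20.valuation (S.gg haux) < 1 := by
  have := S.charP_resB
  refine Vert1_cong S.e20 (Q := qExpand ℤ S.q (HZ S.q) ^ S.q) (S.e20_T2 haux) ?_ ?_
  · rw [map_pow, S.e20_T1 haux, map_pow]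
  · rw [Vert1_frob _ S.q S.hq, map_pow]

/-- `gg' / q` has the expansion `ψ = (H(t^q) - H(t)^q) / q` at `e02` (`psiZ_spec`) -/
theorem e02_gg'_div : S.e02.toHom (S.gg' haux / ((S.q : ℕ) : S.F2)) = cz K (psiZ S.q S.hq) := by
  have hchar : CharZero K := algebraRat.charZero K
  have hq0 : ((S.q : ℕ) : LaurentSeries K) ≠ 0 := by
    have h1 : ((S.q : ℕ) : LaurentSeries K) = HahnSeries.C ((S.q : ℕ) : K) := by
      rw [map_natCast]
    rw [h1]
    intro h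
    have h2 : ((S.q : ℕ) : K) = 0 := HahnSeries.C_injective (by rw [h, map_zero])
    exact S.hq.ne_zero (Nat.cast_eq_zero.1 h2)
  rw [map_div₀, map_natCast, div_eq_iff hq0, gg', map_sub, map_pow, S.e02_T1 haux, S.e02_T2 haux,
    ← map_pow, ← map_sub, psiZ_spec S.q S.hq, map_mul, map_natCast, mul_comm]

/-- `T1^q ≡ T2^(q²)` on the component `(0,2)` -/
theorem cong02_gg :
    S.V02.valuation (S.gg haux - (S.T2 haux - S.T2 haux ^ (S.q ^ 2))) < 1 := by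
  have := S.charP_resB
  have h1 : S.gg haux - (S.T2 haux - S.T2 haux ^ (S.q ^ 2)) =
      S.T2 haux ^ (S.q ^ 2) - S.T1 haux ^ S.q := by
    rw [gg]
    ring
  rw [h1]
  refine Vert1_cong S.e02 (P := HZ S.q ^ (S.q ^ 2)) (Q := qExpand ℤ S.q (HZ S.q) ^ S.q) ?_ ?_ ?_
  · rw [map_pow, S.e02_T2 haux, map_pow]
  · rw [map_pow, S.e02_T1 haux, map_pow]
  · rw [map_pow, map_pow, Vert1_frob _ S.q S.hq, ← pow_mul, sq]

/-- the `T`'s are units of the three valuations (their expansions are units of `ℤ((t))`, resp. a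
twist of one). -/
theorem val_T0 (c : Fin 3) : (S.V3 c).valuation (S.T0 haux) = 1 := by
  fin_cases c
  · exact Vert1_unit' S.e20 (S.e20_T0 haux) (isUnit_HZ S.q)
  · exact Vert1_unit' S.e11 (S.e11_T0 haux) (isUnit_HZ S.q)
  · exact Vert1_unit' S.e02 (S.e02_T0 haux) (((isUnit_HZ S.q).map _).map _)

theorem val_T1 (c : Fin 3) : (S.V3 c).valuation (S.T1 haux) = 1 := by
  fin_cases c
  · exact Vert1_unit' S.e20 (S.e20_T1 haux) ((isUnit_HZ S.q).map _)
  · exact Vert1_unit' S.e11 (S.e11_T1 haux) ((isUnit_HZ S.q).map _)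
  · exact Vert1_unit' S.e02 (S.e02_T1 haux) ((isUnit_HZ S.q).map _)

theorem val_T2 (c : Fin 3) : (S.V3 c).valuation (S.T2 haux) = 1 := by
  fin_cases c
  · exact Vert1_unit' S.e20 (S.e20_T2 haux) (((isUnit_HZ S.q).map _).map _)
  · exact Vert1_unit_twist S.e11 S.ζ S.zeta_mem S.zeta_inv_mem S.Unif_zeta_sub_one_nonunit
      (S.e11_T2 haux) (isUnit_HZ S.q)
  · exact Vert1_unit' S.e02 (S.e02_T2 haux) (isUnit_HZ S.q)

end Setup

end Fermat.Agent.S36.Mod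

end
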