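/-
S36, modular part, block ELTS = DER (owner helper208).  Node ELTS-7: the middle component:
`TT = h(q²τ) - h(τ)` is a uniformiser and `TT^(q-1) X₁ ≡ - q`.
Proofs: helper270 (task ELTS-7).
-/
import Fermat.Agent.S36.Mod.Elts.Level2
import Fermat.Agent.S36.Mod.Elts.Cyclo
import Fermat.Agent.S36.Mod.HalfInst.Unif

set_option autoImplicit false
set_option linter.unusedSectionVars false

noncomputable section

namespace Fermat.Agent.S36.Mod

open ModularCurve Fermat.Agent.S24 Fermat.Agent.S18 Fermat.Agent.S18.Vert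
  Fermat.Agent.Lib.Hauptmodul Fermat.Agent.Lib.Theta

/-- an element of the same valuation as a uniformiser is a uniformiser -/
theorem Vert2_isUnif_of_valuation_div {F : Type*} [Field F] {V : ValuationSubring F} {ϖ x : F}
    (h : IsUnif V ϖ) (hx : V.valuation (x / ϖ) = 1) : IsUnif V x := by
  have hϖ0 : ϖ ≠ 0 := by
    rintro rfl
    exact h.inv_notMem (by rw [inv_zero]; exact zero_mem _)
  have hvϖ : V.valuation ϖ ≠ 0 := (Valuation.ne_zero_iff _).2 hϖ0
  have hv : V.valuation x = V.valuation ϖ := by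
    rw [map_div₀, div_eq_one_iff_eq hvϖ] at hx
    exact hx
  refine ⟨?_, ?_, ?_⟩
  · rw [← ValuationSubring.valuation_le_one_iff, hv, ValuationSubring.valuation_le_one_iff]
    exact h.mem
  · rw [← ValuationSubring.valuation_le_one_iff, map_inv₀, hv, ← map_inv₀,
      ValuationSubring.valuation_le_one_iff]
    exact h.inv_notMem
  · intro y hy
    obtain ⟨n, h1, h2⟩ := h.exists_zpow y hy
    refine ⟨n, ?_, ?_⟩
    · rw [← ValuationSubring.valuation_le_one_iff, map_div₀, map_zpow₀, hv, ← map_zpow₀, ← map_div₀,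
        ValuationSubring.valuation_le_one_iff]
      exact h1
    · rw [← ValuationSubring.valuation_le_one_iff, map_inv₀, map_div₀, map_zpow₀, hv, ← map_zpow₀,
        ← map_div₀, ← map_inv₀, ValuationSubring.valuation_le_one_iff]
      exact h2

namespace Setup

variable {K K' : Type*} [Field K] [Field K'] [Algebra ℚ K] [Algebra ℚ K'] [Algebra K Kbar]
  [Algebra K' Kbar] (S : Setup K K') (haux : Aux S.q S.N0)

/-- `e11_T2`, `e11_T0`, `exists_twist_cz_sub` (with `Unif_zeta_sub_one_mem`, `q_nonunit'`). -/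
theorem exists_e11_TT : ∃ U : LaurentSeries S.B', red S.B' U = cz _ (thZ S.q) ∧
    S.e11.toHom (S.TT haux) =
      inc S.B' (HahnSeries.C ⟨(S.ζ : K') - 1, S.Unif_zeta_sub_one_mem⟩ * U) := by
  obtain ⟨U, hU, h⟩ := exists_twist_cz_sub S.B' S.hq S.q_nonunit' S.ζ S.hζ
    S.Unif_zeta_sub_one_mem (HZ S.q)
  exact ⟨U, hU, by rw [TT, map_sub, S.e11_T2, S.e11_T0, h]⟩

theorem Vert2_cz_thZ_ne_zero : cz S.kk (thZ S.q) ≠ 0 :=
  cz_ne_zero_of_mul_eq_one _ (thZ_mul_thZi S.q)

theorem Vert2_algebraMap_ne_zero :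
    algebraMap K' (LaurentSeries K') ((S.ζ : K') - 1) ≠ 0 := by
  have h1 : (S.ζ : K') - 1 ≠ 0 := by
    intro h0
    have h2 : (S.ζ : K') = 1 := sub_eq_zero.mp h0
    have h3 := S.Unif_zeta_prim
    rw [h2] at h3
    exact S.hq.one_lt.ne' (h3.unique IsPrimitiveRoot.one)
  exact (map_ne_zero _).2 h1

/-- `ζ - 1` is a uniformiser of `B'`?  NOT assumed.  Compare with `tau0`: by `exists_e11_TT` and
`Unif_exists_e11_tau0`, `TT / tau0` has a presentation `U / U'` by two series of nonzero reduction,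
so it is a unit of `V11`.  Hence `IsUnif V11 TT` follows from `IsUnif V11 tau0`. -/
theorem val11_TT_div_tau0 : S.V11.valuation (S.TT haux / S.tau0) = 1 := by
  obtain ⟨U, hU, h⟩ := S.exists_e11_TT haux
  obtain ⟨U', hU', h'⟩ := S.Unif_exists_e11_tau0
  have hU0 : red S.B' U ≠ 0 := by rw [hU]; exact S.Vert2_cz_thZ_ne_zero
  have ha := S.Vert2_algebraMap_ne_zero
  have hiU : inc S.B' U ≠ 0 := inc_ne_zero_of_red_ne_zero hU0
  have hiU' : inc S.B' U' ≠ 0 := inc_ne_zero_of_red_ne_zero hU'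
  rw [map_mul, inc_C] at h h'
  have key : S.e11.toHom (S.TT haux / S.tau0) * inc S.B' U' = inc S.B' U := by
    rw [map_div₀, h, h']
    show algebraMap K' (LaurentSeries K') ((S.ζ : K') - 1) * _ /
      (algebraMap K' (LaurentSeries K') ((S.ζ : K') - 1) * _) * _ = _
    field_simp
  have hne : S.TT haux / S.tau0 ≠ 0 := by
    intro h0
    rw [h0, map_zero, zero_mul] at key
    exact hiU key.symm
  exact Unif_valuation_eq_one hne ((S.e11.mem_val_iff _).2 ⟨U, U', hU', key⟩)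
    (S.e11.inv_mem_val_of_pres hU0 key)

/-- a unit multiple of a uniformiser is a uniformiser -/
theorem isUnif_TT (h : IsUnif S.V11 S.tau0) : IsUnif S.V11 (S.TT haux) :=
  Vert2_isUnif_of_valuation_div h (S.val11_TT_div_tau0 haux)

/-- **`TT^(q-1) X₁ / q ≡ -1`**.  With `q = ε (ζ-1)^(q-1)`, `ε ≡ -1` (`cyc_unit_cong`):
`e11 (TT^(q-1) X₁ / q) = inc (U^(q-1) * cz kapZ * C ε⁻¹)`, whose reduction is
`- (θH)^(q-1) κ = - (θH)^q / (θH)(t^q) = -1` (`kapZ_mul_qExpand`, `cz_qExpand_eq_pow`, `charP_kk`).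
-/
theorem congT :
    S.V11.valuation (S.TT haux ^ (S.q - 1) * S.X₁ haux / ((S.q : ℕ) : S.F2) + 1) < 1 := by
  have : Fact S.q.Prime := ⟨S.hq⟩
  have : CharP S.kk S.q := S.charP_kk
  obtain ⟨U, hU, h⟩ := S.exists_e11_TT haux
  obtain ⟨ε, hε, hε', hq, hε1⟩ := cyc_unit_cong S.B' S.Unif_zeta_prim S.hq S.q_nonunit'
  have ha := S.Vert2_algebraMap_ne_zero
  have hθ := S.Vert2_cz_thZ_ne_zero
  have hq0 : (S.q : K') ≠ 0 := by
    have : CharZero K' := algebraRat.charZero K'
    exact Nat.cast_ne_zero.mpr S.hq.ne_zero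
  have hε0 : ε ≠ 0 := by
    rintro rfl
    rw [zero_mul] at hq
    exact hq0 hq
  have hεL : algebraMap K' (LaurentSeries K') ε ≠ 0 := (map_ne_zero _).2 hε0
  -- the residue of `ε⁻¹`
  have hres : IsLocalRing.residue S.B' (⟨ε⁻¹, hε'⟩ : S.B') = -1 := by
    have h1 : IsLocalRing.residue S.B' ((⟨ε, hε⟩ : S.B') + 1) = 0 := by
      rw [IsLocalRing.residue_eq_zero_iff]
      obtain ⟨hm, hm'⟩ := ValuationSubring.mem_nonunits_iff_exists_mem_maximalIdeal.mp hε1
      exact hm'
    have h2 : IsLocalRing.residue S.B' (⟨ε, hε⟩ : S.B') = -1 := by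
      rw [map_add, map_one] at h1
      exact eq_neg_of_add_eq_zero_left h1
    have h3 : (⟨ε, hε⟩ : S.B') * ⟨ε⁻¹, hε'⟩ = 1 := Subtype.ext (mul_inv_cancel₀ hε0)
    have h4 := congrArg (IsLocalRing.residue S.B') h3
    rw [map_mul, h2, map_one] at h4
    linear_combination -h4
  -- the series identity in characteristic `q`
  have hser : cz S.kk (thZ S.q) ^ (S.q - 1) * cz S.kk (kapZ S.q) = 1 := by
    have h1 := congrArg (cz S.kk) (kapZ_mul_qExpand S.q)
    rw [map_mul, cz_qExpand, cz_qExpand_eq_pow] at h1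
    apply mul_right_cancel₀ hθ
    have h2 : cz S.kk (thZ S.q) ^ S.q = cz S.kk (thZ S.q) ^ (S.q - 1) * cz S.kk (thZ S.q) := by
      rw [← pow_succ, Nat.sub_add_cancel S.hq.one_le]
    rw [h2] at h1
    linear_combination h1
  rw [← ValuationSubring.mem_nonunits_iff]
  refine (S.e11.mem_nonunits_iff _).2
    ⟨U ^ (S.q - 1) * cz S.B' (kapZ S.q) * HahnSeries.C (⟨ε⁻¹, hε'⟩ : S.B') + 1, 1,
      by rw [map_one]; exact one_ne_zero, ?_, ?_⟩
  · rw [map_add, map_mul, map_mul, map_pow, hU, red_cz, red_C, hres, map_one, hser, one_mul,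
      map_neg, map_one, neg_add_cancel]
  · have hqL : ((S.q : ℕ) : LaurentSeries K') =
        algebraMap K' (LaurentSeries K') ε *
          algebraMap K' (LaurentSeries K') ((S.ζ : K') - 1) ^ (S.q - 1) := by
      rw [← map_pow, ← map_mul, ← hq, map_natCast]
    rw [map_mul, inc_C] at h
    rw [map_one, mul_one, map_add, map_one, map_div₀, map_mul, map_pow, map_natCast, h, S.e11_X₁,
      map_add, map_one, map_mul, map_mul, map_pow, inc_cz, inc_C, hqL]
    show (algebraMap K' (LaurentSeries K') ((S.ζ : K') - 1) * _) ^ (S.q - 1) * _ / _ + 1 =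
      _ * _ * algebraMap K' (LaurentSeries K') ε⁻¹ + 1
    rw [mul_pow, map_inv₀]
    field_simp

end Setup

end Fermat.Agent.S36.Mod

end
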