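/-
S36, modular part, block ELTS = DER (owner helper208).  INTEGRALITY of the vertical elements over
`B[j]`:  horizontal part (`d/dh` preserves the functions regular off the cusps, `Elts/Unram.lean`),
then "horizontal + vertical ⟹ integral" (`Elts/Scale.lean`), given the `q`-expansion principle of the
chart of the good coordinate `h(z)` at level `N0 q q` (`InstBase.qep₁`).
-/
import Fermat.Agent.S36.Mod.Elts.Unram
import Fermat.Agent.S36.Mod.Elts.Scale
import Fermat.Agent.S36.Mod.Elts.LevelInt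
import Fermat.Agent.S36.Mod.Elts.Vert1
import Fermat.Agent.S36.Mod.Elts.Vert2
import Fermat.Agent.S36.Mod.Base.Int
import Fermat.Agent.BAD.LevelQ.Mod.SetupGauss

set_option autoImplicit false
set_option linter.unusedSectionVars false
set_option linter.style.haveILetI false

noncomputable section

namespace Fermat.Agent.S36.Mod

open ModularCurve Fermat.Agent.S24 Fermat.Agent.S18 Fermat.Agent.S36.BP.Build
  Fermat.Agent.Lib.Hauptmodul Fermat.Agent.Lib.Theta IntermediateField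

/-- `G = H (1 + 9 H + 27 H²)` (`q = 2`) resp. `H (1 + 16 H)`: its zeros and poles are the cusps -/
def auxG {R : Type*} [CommRing R] (q : ℕ) (H : R) : R :=
  if q = 2 then H * (1 + 9 * H + 27 * H ^ 2) else H * (1 + 16 * H)

/-- `J G = P(H)` -/
def auxP {R : Type*} [CommRing R] (q : ℕ) (H : R) : R :=
  if q = 2 then (1 + 9 * H) ^ 3 * (1 + 243 * H + 2187 * H ^ 2 + 6561 * H ^ 3) ^ 3
  else (1 + 256 * H + 4096 * H ^ 2) ^ 3

theorem map_auxG {R R' : Type*} [CommRing R] [CommRing R'] (φ : R →+* R') (q : ℕ) (H : R) :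
    φ (auxG q H) = auxG q (φ H) := by
  unfold auxG
  split_ifs <;> simp only [map_mul, map_add, map_pow, map_one, map_ofNat]

theorem map_auxP {R R' : Type*} [CommRing R] [CommRing R'] (φ : R →+* R') (q : ℕ) (H : R) :
    φ (auxP q H) = auxP q (φ H) := by
  unfold auxP
  split_ifs <;> simp only [map_mul, map_add, map_pow, map_one, map_ofNat]

theorem auxG_mem {R : Type*} [CommRing R] (C : Subring R) (q : ℕ) {H : R} (h : H ∈ C) :
    auxG q H ∈ C := by
  have hn : ∀ n : ℕ, (n : R) ∈ C := fun n => natCast_mem _ n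
  unfold auxG
  split_ifs
  · exact mul_mem h (add_mem (add_mem (one_mem _) (mul_mem (by simpa using hn 9) h))
      (mul_mem (by simpa using hn 27) (pow_mem h _)))
  · exact mul_mem h (add_mem (one_mem _) (mul_mem (by simpa using hn 16) h))

theorem auxP_mem {R : Type*} [CommRing R] (C : Subring R) (q : ℕ) {H : R} (h : H ∈ C) :
    auxP q H ∈ C := by
  have hn : ∀ n : ℕ, (n : R) ∈ C := fun n => natCast_mem _ n
  unfold auxP
  split_ifs
  · exact mul_mem (pow_mem (add_mem (one_mem _) (mul_mem (by simpa using hn 9) h)) _)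
      (pow_mem (add_mem (add_mem (add_mem (one_mem _) (mul_mem (by simpa using hn 243) h))
        (mul_mem (by simpa using hn 2187) (pow_mem h _)))
        (mul_mem (by simpa using hn 6561) (pow_mem h _))) _)
  · exact pow_mem (add_mem (add_mem (one_mem _) (mul_mem (by simpa using hn 256) h))
      (mul_mem (by simpa using hn 4096) (pow_mem h _))) _

/-- the prime of the auxiliary level -/
def auxPrime (q : ℕ) : ℕ := if q = 2 then 3 else 2

theorem aux_mem_chart {K₀ F : Type*} [Field K₀] [Field F] [Algebra K₀ F] [CharZero K₀]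
    (A : Subring K₀) (q : ℕ) (hA : ((auxPrime q : ℕ) : K₀)⁻¹ ∈ A) {J H : F}
    (e : J * auxG q H = auxP q H) : H ∈ chart A J ∧ (auxG q H)⁻¹ ∈ chart A J := by
  unfold auxG auxP at e
  unfold auxPrime at hA
  unfold auxG
  split_ifs at e hA ⊢ with hq
  · exact level9_mem_chart A (by simpa using hA) (by norm_num) e
  · exact level4_mem_chart A (by simpa using hA) (by norm_num) e

theorem auxG_ne_zero {F : Type*} [Field F] (q : ℕ) {J H : F} (e : J * auxG q H = auxP q H) :
    auxG q H ≠ 0 := by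
  intro h0
  rw [h0, mul_zero] at e
  unfold auxG at h0
  unfold auxP at e
  split_ifs at e h0 with hq
  · have e1 : (1 + 9 * H) ^ 3 = 1 + 27 * (H * (1 + 9 * H + 27 * H ^ 2)) := by ring
    have e2 : 1 + 243 * H + 2187 * H ^ 2 + 6561 * H ^ 3
        = 1 + 243 * (H * (1 + 9 * H + 27 * H ^ 2)) := by ring
    rw [e1, e2, h0] at e
    norm_num at e
  · have e1 : 1 + 256 * H + 4096 * H ^ 2 = 1 + 256 * (H * (1 + 16 * H)) := by ring
    rw [e1, h0] at e
    norm_num at e

namespace Setup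

variable {K K' : Type*} [Field K] [Field K'] [Algebra ℚ K] [Algebra ℚ K'] [Algebra K Kbar]
  [Algebra K' Kbar] (S : Setup K K') (haux : Aux S.q S.N0)

/-! ### level `N0` -/

theorem hh_eq_h9K (hq : S.q = 2) (h9 : 9 ∣ S.N0) : S.hh haux = h9K K S.N0 h9 := by
  apply Subtype.ext
  rw [coe_h9K]
  refine (coe_auxK K haux).trans ?_
  rw [hq, auxH_two]

theorem hh_eq_h4K (hq : S.q ≠ 2) (h4 : 4 ∣ S.N0) : S.hh haux = h4K K S.N0 h4 := by
  apply Subtype.ext
  rw [coe_h4K]
  refine (coe_auxK K haux).trans ?_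
  rw [auxH_of_ne hq]

/-- `j G(h) = P(h)` -/
theorem j0_mul_auxG : S.j0 * auxG S.q (S.hh haux) = auxP S.q (S.hh haux) := by
  unfold auxG auxP
  have haux' := haux
  unfold Aux at haux'
  split_ifs at haux' ⊢ with hq
  · rw [S.hh_eq_h9K haux hq haux']
    exact S.j0_mul_h9 haux'
  · rw [S.hh_eq_h4K haux hq haux']
    exact S.j0_mul_h4 haux'

theorem auxPrime_coprime : (auxPrime S.q).Coprime S.q := by
  unfold auxPrime
  split_ifs with hq
  · rw [hq]; norm_num
  · exact (Nat.coprime_primes Nat.prime_two S.hq).2 (Ne.symm hq)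

theorem auxPrime_inv_mem : ((auxPrime S.q : ℕ) : K)⁻¹ ∈ S.B.toSubring := by
  have h := S.valuation_natCast_eq_one S.auxPrime_coprime
  show ((auxPrime S.q : ℕ) : K)⁻¹ ∈ S.B
  rw [← ValuationSubring.valuation_le_one_iff, map_inv₀, h, inv_one]

theorem map_j0_mul_auxG {E : Type*} [Field E] [Algebra K E] (φ : S.F0 →ₐ[K] E) :
    φ S.j0 * auxG S.q (φ (S.hh haux)) = auxP S.q (φ (S.hh haux)) := by
  have h := congrArg φ (S.j0_mul_auxG haux)
  have e1 : φ (auxG S.q (S.hh haux)) = auxG S.q (φ (S.hh haux)) :=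
    map_auxG (φ : S.F0 →+* E) _ _
  have e2 : φ (auxP S.q (S.hh haux)) = auxP S.q (φ (S.hh haux)) :=
    map_auxP (φ : S.F0 →+* E) _ _
  rwa [map_mul, e1, e2] at h

/-- for every embedding `φ` of `F0`: `φ h` and `1 / G(φ h)` are integral over `A[φ j]` -/
theorem map_hh_mem_chart {E : Type*} [Field E] [Algebra K E] (φ : S.F0 →ₐ[K] E) (A : Subring K)
    (hA : ((auxPrime S.q : ℕ) : K)⁻¹ ∈ A) :
    φ (S.hh haux) ∈ chart A (φ S.j0) ∧ (auxG S.q (φ (S.hh haux)))⁻¹ ∈ chart A (φ S.j0) := by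
  haveI : CharZero K := algebraRat.charZero K
  exact aux_mem_chart A S.q hA (S.map_j0_mul_auxG haux φ)

/-! ### level `N0 q`, horizontal part -/

theorem h0_eq_auxK : S.h0 haux = auxK K (haux.mul_right S.q) := by
  apply Subtype.ext
  rw [h0, coe_al0, hh, coe_auxK, coe_auxK]

theorem al0_j0_eq_jK : S.al0 S.j0 = jK K (S.N0 * S.q) := by
  apply Subtype.ext
  rw [coe_al0]
  rfl

theorem h1_mem_top : S.h1 haux ∈ chart (⊤ : Subring K) (S.al0 S.j0) := by
  rw [S.chart_al0_eq_be0 ⊤]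
  exact (S.map_hh_mem_chart haux S.be0 ⊤ (Subring.mem_top _)).1

theorem kap'_mem_top : S.kap' haux ∈ chart (⊤ : Subring K) (S.al0 S.j0) := by
  have h := S.h1_mem_top haux
  rw [al0_j0_eq_jK] at h ⊢
  rw [kap', h0_eq_auxK]
  exact mul_mem (natCast_mem _ _) (dd_auxK_mem_chart_top K _ h)

theorem kap_mem_top : S.kap haux ∈ chart (⊤ : Subring K) (S.al0 S.j0) := by
  have h := map_mem_chart S.w1 ⊤ _ _ (S.kap'_mem_top haux)
  rwa [S.w1_kap' haux, S.w1_al0, ← S.chart_al0_eq_be0 ⊤] at h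

/-! ### level `N0 q q`, horizontal part -/

theorem al1_mem_top {f : S.F1} (h : f ∈ chart (⊤ : Subring K) (S.al0 S.j0)) :
    S.al1 f ∈ chart (⊤ : Subring K) (S.ia S.j0) :=
  map_mem_chart S.al1 ⊤ _ _ h

theorem be1_mem_top {f : S.F1} (h : f ∈ chart (⊤ : Subring K) (S.al0 S.j0)) :
    S.be1 f ∈ chart (⊤ : Subring K) (S.ia S.j0) := by
  have h1 := map_mem_chart S.be1 ⊤ _ _ h
  rwa [S.int_mid_j0', ← S.chart_ia_eq_mid ⊤] at h1

theorem X₁_mem_top : S.X₁ haux ∈ chart (⊤ : Subring K) (S.ia S.j0) :=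
  S.al1_mem_top (S.kap_mem_top haux)

theorem Y₁_mem_top : S.Y₁ haux ∈ chart (⊤ : Subring K) (S.ia S.j0) :=
  S.al1_mem_top (S.kap'_mem_top haux)

theorem X₂_mem_top : S.X₂ haux ∈ chart (⊤ : Subring K) (S.ia S.j0) :=
  S.be1_mem_top (S.kap_mem_top haux)

theorem Y₂_mem_top : S.Y₂ haux ∈ chart (⊤ : Subring K) (S.ia S.j0) :=
  S.be1_mem_top (S.kap'_mem_top haux)

/-! ### level `N0 q q`, integrality over `B[j]` -/

theorem T0_mem_chart : S.T0 haux ∈ chart S.B.toSubring (S.ia S.j0) :=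
  (S.map_hh_mem_chart haux S.ia _ S.auxPrime_inv_mem).1

theorem T2_mem_chart : S.T2 haux ∈ chart S.B.toSubring (S.ia S.j0) := by
  rw [S.chart_ia_eq_ib]
  exact (S.map_hh_mem_chart haux S.ib _ S.auxPrime_inv_mem).1

theorem TT_mem_chart : S.TT haux ∈ chart S.B.toSubring (S.ia S.j0) :=
  sub_mem (S.T2_mem_chart haux) (S.T0_mem_chart haux)

/-- the `q`-expansion principle of the chart of `h(z)`; provided by `InstBase.qep₁` -/
def Qep : Prop :=
  ∀ y : S.F2, ((S.q : ℕ) : S.F2) * y ∈ chart S.B.toSubring (S.ia (S.hh haux)) →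
    (∀ c, y ∈ S.VV c) → y ∈ chart S.B.toSubring (S.ia (S.hh haux))

variable {haux}

/-- **horizontal + vertical ⟹ integral over `B[j]`** -/
theorem mem_chart_of_top (hQ : S.Qep haux) {z : S.F2}
    (hz : z ∈ chart (⊤ : Subring K) (S.ia S.j0)) (hzV : ∀ c, z ∈ S.VV c) :
    z ∈ chart S.B.toSubring (S.ia S.j0) := by
  have hx := S.map_hh_mem_chart haux S.ia _ S.auxPrime_inv_mem
  have e : S.ia S.j0 * auxG S.q (S.ia (S.hh haux)) = auxP S.q (S.ia (S.hh haux)) :=
    S.map_j0_mul_auxG haux S.ia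
  have hself : S.ia (S.hh haux) ∈ chart (⊤ : Subring K) (S.ia (S.hh haux)) := self_mem_chart ⊤
  refine mem_chart_of_qep S.isUnif_B S.VV (x := S.ia (S.hh haux))
    (g := auxG S.q (S.ia (S.hh haux))) ?_ ?_ (auxG_mem _ _ hself) ?_ ?_ hx.1 hx.2
    (auxG_ne_zero S.q e) hz hzV
  · intro y hy hV
    rw [map_natCast] at hy
    exact hQ y hy hV
  · intro c
    rw [map_natCast]
    exact natCast_mem _ _
  · intro c
    apply auxG_mem (S.VV c).toSubring
    have h := S.val_T0 haux c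
    exact (ValuationSubring.valuation_le_one_iff _ _).1 h.le
  · rw [e]
    exact auxP_mem _ _ hself

end Setup

end Fermat.Agent.S36.Mod

end
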