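/-
S36, modular part, block ELTS = DER (owner helper208).  Abstract algebra: the Hauptmodul `H` of level
`4` (resp. `9`) and the inverse of `G = H (1 + 16 H)` (resp. `H (1 + 9 H + 27 H²)`) are integral over
`A[J]` as soon as `2` (resp. `3`) is invertible in `A`.
-/
import Mathlib
import Fermat.Agent.S18.Defs
import Fermat.Agent.S18.Chart.Const
import Fermat.Agent.S18.Chart.Overlap

set_option autoImplicit false

noncomputable section

namespace Fermat.Agent.S36.Mod

open Polynomial Fermat.Agent.S18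

variable {K₀ F : Type*} [Field K₀] [Field F] [Algebra K₀ F]

theorem elts_const_mem_chart (A₀ : Subring K₀) (y : F) {a : K₀} (ha : a ∈ A₀) :
    algebraMap K₀ F a ∈ chart A₀ y :=
  map_le_chart A₀ ⟨a, ha, rfl⟩

theorem elts_mem_chart_of_cubic (A₀ : Subring K₀) (y : F) {z a b c : F} (ha : a ∈ chart A₀ y)
    (hb : b ∈ chart A₀ y) (hc : c ∈ chart A₀ y) (h : z ^ 3 = a * z ^ 2 + b * z + c) :
    z ∈ chart A₀ y := by
  apply mem_chart_of_isIntegral_chart
  set p : (chart A₀ y)[X] := C ⟨a, ha⟩ * Polynomial.X ^ 2 + C ⟨b, hb⟩ * Polynomial.X + C ⟨c, hc⟩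
    with hp
  have hdeg : p.degree < ((3 : ℕ) : WithBot ℕ) := by
    have h2 : p.degree ≤ 2 := by
      rw [hp]
      compute_degree
    exact lt_of_le_of_lt h2 (by norm_num)
  refine ⟨Polynomial.X ^ 3 - p, monic_X_pow_sub hdeg, ?_⟩
  rw [hp]
  simp only [eval₂_sub, eval₂_add, eval₂_mul, eval₂_pow, eval₂_X, eval₂_C]
  show z ^ 3 - (a * z ^ 2 + b * z + c) = 0
  rw [← h]
  ring

theorem elts_mem_chart_of_quartic (A₀ : Subring K₀) (y : F) {z a b c d : F}
    (ha : a ∈ chart A₀ y) (hb : b ∈ chart A₀ y) (hc : c ∈ chart A₀ y)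
    (hd : d ∈ chart A₀ y) (h : z ^ 4 = a * z ^ 3 + b * z ^ 2 + c * z + d) :
    z ∈ chart A₀ y := by
  apply mem_chart_of_isIntegral_chart
  set p : (chart A₀ y)[X] := C ⟨a, ha⟩ * Polynomial.X ^ 3 + C ⟨b, hb⟩ * Polynomial.X ^ 2 +
    C ⟨c, hc⟩ * Polynomial.X + C ⟨d, hd⟩ with hp
  have hdeg : p.degree < ((4 : ℕ) : WithBot ℕ) := by
    have h2 : p.degree ≤ 3 := by
      rw [hp]
      compute_degree
    exact lt_of_le_of_lt h2 (by norm_num)
  refine ⟨Polynomial.X ^ 4 - p, monic_X_pow_sub hdeg, ?_⟩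
  rw [hp]
  simp only [eval₂_sub, eval₂_add, eval₂_mul, eval₂_pow, eval₂_X, eval₂_C]
  show z ^ 4 - (a * z ^ 3 + b * z ^ 2 + c * z + d) = 0
  rw [← h]
  ring

/-- **Level 4.** -/
theorem level4_mem_chart (A : Subring K₀) (h2 : (2 : K₀)⁻¹ ∈ A) (h20 : (2 : K₀) ≠ 0) {J H : F}
    (e : J * (H * (1 + 16 * H)) = (1 + 256 * H + 4096 * H ^ 2) ^ 3) :
    H ∈ chart A J ∧ (H * (1 + 16 * H))⁻¹ ∈ chart A J := by
  set G : F := H * (1 + 16 * H) with hG
  have e' : J * G = (1 + 256 * G) ^ 3 := by rw [e, hG]; ring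
  have hJ : J ∈ chart A J := self_mem_chart A
  set t : F := algebraMap K₀ F (2 : K₀)⁻¹ with ht
  have htm : t ∈ chart A J := elts_const_mem_chart A J h2
  have ht2 : 2 * t = 1 := by
    rw [ht, map_inv₀, map_ofNat]
    exact mul_inv_cancel₀ (by
      have := (map_ne_zero (algebraMap K₀ F)).2 h20
      rwa [map_ofNat] at this)
  have hn : ∀ n : ℕ, (n : F) ∈ chart A J := fun n => natCast_mem _ n
  have hG0 : G ≠ 0 := by
    intro h0
    rw [h0] at e'
    norm_num at e'
  have hGm : G ∈ chart A J := by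
    refine elts_mem_chart_of_cubic A J (a := -(3 * t ^ 8)) (b := (J - 768) * t ^ 24)
      (c := -(t ^ 24)) ?_ ?_ ?_ ?_
    · exact neg_mem (mul_mem (by simpa using hn 3) (pow_mem htm _))
    · exact mul_mem (sub_mem hJ (by simpa using hn 768)) (pow_mem htm _)
    · exact neg_mem (pow_mem htm _)
    · have h256 : (256 : F) * t ^ 8 = 1 := by
        have : (256 : F) * t ^ 8 = (2 * t) ^ 8 := by ring
        rw [this, ht2, one_pow]
      have h24 : (16777216 : F) * t ^ 24 = 1 := by
        have : (16777216 : F) * t ^ 24 = (2 * t) ^ 24 := by ring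
        rw [this, ht2, one_pow]
      have h16 : (65536 : F) * t ^ 16 = 1 := by
        have : (65536 : F) * t ^ 16 = (2 * t) ^ 16 := by ring
        rw [this, ht2, one_pow]
      linear_combination (-(t ^ 24)) * e' - (G ^ 3) * h24 - (3 * G ^ 2 * t ^ 8) * h16
  refine ⟨?_, ?_⟩
  · refine elts_mem_chart_of_cubic A J (a := -(t ^ 4)) (b := G * t ^ 4) (c := 0) ?_ ?_ ?_ ?_
    · exact neg_mem (pow_mem htm _)
    · exact mul_mem hGm (pow_mem htm _)
    · exact zero_mem _
    · have h16 : (16 : F) * t ^ 4 = 1 := by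
        have : (16 : F) * t ^ 4 = (2 * t) ^ 4 := by ring
        rw [this, ht2, one_pow]
      have hGH : G = H + 16 * H ^ 2 := by rw [hG]; ring
      rw [hGH]
      linear_combination (-(H ^ 3)) * h16
  · refine elts_mem_chart_of_cubic A J (a := J - 768) (b := -196608) (c := -16777216) ?_ ?_ ?_ ?_
    · exact sub_mem hJ (by simpa using hn 768)
    · exact neg_mem (by simpa using hn 196608)
    · exact neg_mem (by simpa using hn 16777216)
    · field_simp
      linear_combination (-1 : F) * e'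

/-- **Level 9.** -/
theorem level9_mem_chart (A : Subring K₀) (h3 : (3 : K₀)⁻¹ ∈ A) (h30 : (3 : K₀) ≠ 0) {J H : F}
    (e : J * (H * (1 + 9 * H + 27 * H ^ 2)) =
      (1 + 9 * H) ^ 3 * (1 + 243 * H + 2187 * H ^ 2 + 6561 * H ^ 3) ^ 3) :
    H ∈ chart A J ∧ (H * (1 + 9 * H + 27 * H ^ 2))⁻¹ ∈ chart A J := by
  set G : F := H * (1 + 9 * H + 27 * H ^ 2) with hG
  have e' : J * G = (1 + 27 * G) * (1 + 243 * G) ^ 3 := by rw [e, hG]; ring
  have hJ : J ∈ chart A J := self_mem_chart A
  set t : F := algebraMap K₀ F (3 : K₀)⁻¹ with ht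
  have htm : t ∈ chart A J := elts_const_mem_chart A J h3
  have ht3 : 3 * t = 1 := by
    rw [ht, map_inv₀, map_ofNat]
    exact mul_inv_cancel₀ (by
      have := (map_ne_zero (algebraMap K₀ F)).2 h30
      rwa [map_ofNat] at this)
  have hn : ∀ n : ℕ, (n : F) ∈ chart A J := fun n => natCast_mem _ n
  have hG0 : G ≠ 0 := by
    intro h0
    rw [h0] at e'
    norm_num at e'
  have hGm : G ∈ chart A J := by
    refine elts_mem_chart_of_quartic A J (a := -(4 * t ^ 4)) (b := -(10 * t ^ 9))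
      (c := (J - 756) * t ^ 18) (d := -(t ^ 18)) ?_ ?_ ?_ ?_ ?_
    · exact neg_mem (mul_mem (by simpa using hn 4) (pow_mem htm _))
    · exact neg_mem (mul_mem (by simpa using hn 10) (pow_mem htm _))
    · exact mul_mem (sub_mem hJ (by simpa using hn 756)) (pow_mem htm _)
    · exact neg_mem (pow_mem htm _)
    · have h18 : (387420489 : F) * t ^ 18 = 1 := by
        have : (387420489 : F) * t ^ 18 = (3 * t) ^ 18 := by ring
        rw [this, ht3, one_pow]
      have h14 : (4782969 : F) * t ^ 14 = 1 := by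
        have : (4782969 : F) * t ^ 14 = (3 * t) ^ 14 := by ring
        rw [this, ht3, one_pow]
      have h9 : (19683 : F) * t ^ 9 = 1 := by
        have : (19683 : F) * t ^ 9 = (3 * t) ^ 9 := by ring
        rw [this, ht3, one_pow]
      linear_combination (-(t ^ 18)) * e' - (G ^ 4) * h18 - (4 * G ^ 3 * t ^ 4) * h14
        - (10 * G ^ 2 * t ^ 9) * h9
  refine ⟨?_, ?_⟩
  · refine elts_mem_chart_of_cubic A J (a := -t) (b := -(t ^ 3)) (c := G * t ^ 3) ?_ ?_ ?_ ?_
    · exact neg_mem htm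
    · exact neg_mem (pow_mem htm _)
    · exact mul_mem hGm (pow_mem htm _)
    · have h27 : (27 : F) * t ^ 3 = 1 := by
        have : (27 : F) * t ^ 3 = (3 * t) ^ 3 := by ring
        rw [this, ht3, one_pow]
      have h9 : (9 : F) * t ^ 2 = 1 := by
        have : (9 : F) * t ^ 2 = (3 * t) ^ 2 := by ring
        rw [this, ht3, one_pow]
      have hGH : G = H + 9 * H ^ 2 + 27 * H ^ 3 := by rw [hG]; ring
      rw [hGH]
      linear_combination (-(H ^ 3)) * h27 - (H ^ 2 * t) * h9
  · refine elts_mem_chart_of_quartic A J (a := J - 756) (b := -196830) (c := -19131876)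
      (d := -387420489) ?_ ?_ ?_ ?_ ?_
    · exact sub_mem hJ (by simpa using hn 756)
    · exact neg_mem (by simpa using hn 196830)
    · exact neg_mem (by simpa using hn 19131876)
    · exact neg_mem (by simpa using hn 387420489)
    · field_simp
      linear_combination (-1 : F) * e'

end Fermat.Agent.S36.Mod

end
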