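/-
S36, modular part, block ELTS = DER (owner helper208).  ASSEMBLY: the field `elts` of
`BAD.Model.InstData` (helper98's contract), for the base coordinate `x₀ = h` (`auxBase`).
-/
import Fermat.Agent.S36.Mod.Elts.Horiz
import Fermat.Agent.BAD.Model.InstDefs

set_option autoImplicit false
set_option linter.unusedSectionVars false

noncomputable section

namespace Fermat.Agent.S36.Mod

open ModularCurve Fermat.Agent.S24 Fermat.Agent.S18 Fermat.Agent.S36.BP Fermat.Agent.BAD.Model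
  Fermat.Agent.Lib.Hauptmodul Fermat.Agent.Lib.Theta

namespace Setup

variable {K K' : Type*} [Field K] [Field K'] [Algebra ℚ K] [Algebra ℚ K'] [Algebra K Kbar]
  [Algebra K' Kbar] (S : Setup K K') (haux : Aux S.q S.N0)

/-! ### the base coordinate -/

theorem two_not_dvd_of_ne (hq : S.q ≠ 2) : ¬ 2 ∣ S.q := fun h =>
  hq ((Nat.prime_dvd_prime_iff_eq Nat.prime_two S.hq).1 h).symm

theorem three_not_dvd_of_eq (hq : S.q = 2) : ¬ 3 ∣ S.q := by rw [hq]; norm_num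

/-- the base data of KL-A attached to the Hauptmodul `h` of the auxiliary level -/
def auxBase : BaseData S.N0 S.q :=
  if hq : S.q = 2 then baseData9 S.N0 S.q (by simpa [Aux, hq] using haux) (S.three_not_dvd_of_eq hq)
  else baseData4 S.N0 S.q (by simpa [Aux, hq] using haux) (S.two_not_dvd_of_ne hq)

theorem auxBase_xK : (S.auxBase haux).xK K = S.hh haux := by
  unfold auxBase
  split_ifs with hq
  · rw [baseData9_xK, S.hh_eq_h9K haux hq]
  · rw [baseData4_xK, S.hh_eq_h4K haux hq]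

theorem baseRel_auxBase : S.BaseRel (S.auxBase haux) := by
  unfold auxBase
  split_ifs with hq
  · exact S.baseRel9 _ _
  · exact S.baseRel4 _ _

/-! ### the vertical elements -/

theorem VV_eq_V3 : S.VV = S.V3 := rfl

theorem q_ne_zero_F2 : ((S.q : ℕ) : S.F2) ≠ 0 := by
  haveI : CharZero K := algebraRat.charZero K
  haveI : CharZero S.F2 := charZero_of_injective_algebraMap (algebraMap K S.F2).injective
  exact Nat.cast_ne_zero.2 S.hq.ne_zero

theorem X₁_ne_zero : S.X₁ haux ≠ 0 := by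
  intro h
  have := S.X₁_mul_Y₁ haux
  rw [h, zero_mul] at this
  exact pow_ne_zero 2 S.q_ne_zero_F2 this.symm

theorem vertElts :
    VertElts S.q S.VV (S.TT haux) (S.X₁ haux) (S.Y₁ haux) (S.X₂ haux) (S.Y₂ haux) where
  mul₁ := S.X₁_mul_Y₁ haux
  mul₂ := S.X₂_mul_Y₂ haux
  X₁_0 := S.val20_X₁ haux
  X₁_1 := S.val11_X₁ haux
  Y₁_2 := S.val02_Y₁ haux
  X₂_0 := S.val20_X₂ haux
  Y₂_1 := S.val11_Y₂ haux
  Y₂_2 := S.val02_Y₂ haux
  Q1 := by
    show S.V20.valuation _ < 1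
    have h0 := S.X₁_ne_zero haux
    have e : S.X₂ haux / S.X₁ haux - S.X₁ haux ^ (S.q - 1)
        = (S.X₂ haux - S.X₁ haux ^ S.q) / S.X₁ haux := by
      obtain ⟨m, hm⟩ : ∃ m, S.q = m + 1 := ⟨S.q - 1, (Nat.succ_pred_eq_of_pos S.hq.pos).symm⟩
      rw [hm, Nat.add_sub_cancel, pow_succ]
      field_simp
    rw [e, map_div₀, S.val20_X₁ haux, div_one]
    exact S.cong20 haux
  Q3 := S.cong11 haux
  Q4 := S.congT haux

/-! ### vertical integrality -/

theorem mem_of_mul_eq {V : ValuationSubring S.F2} {X Y : S.F2}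
    (h : X * Y = ((S.q : ℕ) : S.F2) ^ 2) (hY : V.valuation Y = 1) : X ∈ V := by
  rw [← ValuationSubring.valuation_le_one_iff]
  have h1 := congrArg V.valuation h
  rw [map_mul, hY, mul_one] at h1
  rw [h1, ValuationSubring.valuation_le_one_iff]
  exact pow_mem (natCast_mem _ _) 2

theorem mem_of_val_eq_one {V : ValuationSubring S.F2} {X : S.F2} (h : V.valuation X = 1) :
    X ∈ V := (ValuationSubring.valuation_le_one_iff _ _).1 h.le

theorem X₁_mem_VV (c : Fin 3) : S.X₁ haux ∈ S.VV c := by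
  fin_cases c
  · exact S.mem_of_val_eq_one (S.val20_X₁ haux)
  · exact S.mem_of_val_eq_one (S.val11_X₁ haux)
  · exact S.mem_of_mul_eq (S.X₁_mul_Y₁ haux) (S.val02_Y₁ haux)

theorem Y₁_mem_VV (c : Fin 3) : S.Y₁ haux ∈ S.VV c := by
  have h : S.Y₁ haux * S.X₁ haux = ((S.q : ℕ) : S.F2) ^ 2 := by
    rw [mul_comm]; exact S.X₁_mul_Y₁ haux
  fin_cases c
  · exact S.mem_of_mul_eq h (S.val20_X₁ haux)
  · exact S.mem_of_mul_eq h (S.val11_X₁ haux)
  · exact S.mem_of_val_eq_one (S.val02_Y₁ haux)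

theorem X₂_mem_VV (c : Fin 3) : S.X₂ haux ∈ S.VV c := by
  fin_cases c
  · exact S.mem_of_val_eq_one (S.val20_X₂ haux)
  · exact S.mem_of_mul_eq (S.X₂_mul_Y₂ haux) (S.val11_Y₂ haux)
  · exact S.mem_of_mul_eq (S.X₂_mul_Y₂ haux) (S.val02_Y₂ haux)

theorem Y₂_mem_VV (c : Fin 3) : S.Y₂ haux ∈ S.VV c := by
  have h : S.Y₂ haux * S.X₂ haux = ((S.q : ℕ) : S.F2) ^ 2 := by
    rw [mul_comm]; exact S.X₂_mul_Y₂ haux
  fin_cases c
  · exact S.mem_of_mul_eq h (S.val20_X₂ haux)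
  · exact S.mem_of_val_eq_one (S.val11_Y₂ haux)
  · exact S.mem_of_val_eq_one (S.val02_Y₂ haux)

/-! ### the field `elts` -/

variable {haux}

theorem X₁_mem_chart (hQ : S.Qep haux) : S.X₁ haux ∈ chart S.B.toSubring (S.ia S.j0) :=
  S.mem_chart_of_top hQ (S.X₁_mem_top haux) (S.X₁_mem_VV haux)

theorem Y₁_mem_chart (hQ : S.Qep haux) : S.Y₁ haux ∈ chart S.B.toSubring (S.ia S.j0) :=
  S.mem_chart_of_top hQ (S.Y₁_mem_top haux) (S.Y₁_mem_VV haux)

theorem X₂_mem_chart (hQ : S.Qep haux) : S.X₂ haux ∈ chart S.B.toSubring (S.ia S.j0) :=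
  S.mem_chart_of_top hQ (S.X₂_mem_top haux) (S.X₂_mem_VV haux)

theorem Y₂_mem_chart (hQ : S.Qep haux) : S.Y₂ haux ∈ chart S.B.toSubring (S.ia S.j0) :=
  S.mem_chart_of_top hQ (S.Y₂_mem_top haux) (S.Y₂_mem_VV haux)

/-- **The field `elts` of `InstData`**, from the `q`-expansion principle `InstBase.qep₁` for the base
coordinate `x₀ = (S.auxBase haux).xK K = S.hh haux`. -/
theorem elts_of_qep (hQ : S.Qep haux) :
    ∃ T X₁ Y₁ X₂ Y₂ : S.F2, VertElts S.q S.VV T X₁ Y₁ X₂ Y₂ ∧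
    T ∈ chart S.B.toSubring (S.ia S.j0) ∧
    X₁ ∈ chart S.B.toSubring (S.ia S.j0) ∧ Y₁ ∈ chart S.B.toSubring (S.ia S.j0) ∧
    X₂ ∈ chart S.B.toSubring (S.ia S.j0) ∧ Y₂ ∈ chart S.B.toSubring (S.ia S.j0) :=
  ⟨_, _, _, _, _, S.vertElts haux, S.TT_mem_chart haux, S.X₁_mem_chart hQ, S.Y₁_mem_chart hQ,
    S.X₂_mem_chart hQ, S.Y₂_mem_chart hQ⟩

/-- the same, with the hypothesis in the literal shape of `InstBase.qep₁` for `D = S.auxBase haux` -/
theorem elts_of_qep' (hQ : ∀ y : S.F2,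
      ((S.q : ℕ) : S.F2) * y ∈ chart S.B.toSubring (S.ia ((S.auxBase haux).xK K)) →
      (∀ c, y ∈ S.VV c) → y ∈ chart S.B.toSubring (S.ia ((S.auxBase haux).xK K))) :
    ∃ T X₁ Y₁ X₂ Y₂ : S.F2, VertElts S.q S.VV T X₁ Y₁ X₂ Y₂ ∧
    T ∈ chart S.B.toSubring (S.ia S.j0) ∧
    X₁ ∈ chart S.B.toSubring (S.ia S.j0) ∧ Y₁ ∈ chart S.B.toSubring (S.ia S.j0) ∧
    X₂ ∈ chart S.B.toSubring (S.ia S.j0) ∧ Y₂ ∈ chart S.B.toSubring (S.ia S.j0) := by
  rw [S.auxBase_xK haux] at hQ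
  exact S.elts_of_qep hQ

end Setup

end Fermat.Agent.S36.Mod

end
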